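import Fermat.Agent.S19x.HopfOrder
import Fermat.Agent.S19x.Alg.FunOrder
import Fermat.Agent.S56x.Dict.FFPoints

/-!
# P-S19, block B: from a function-level Hopf order to `IsFFPoints`

The last step of block B in the vocabulary of the team: a subalgebra
`H : Subalgebra ℤ_(ℓ) (X → ℚ̄)` which is a function-level Hopf order
(`Alg.FunOrder.IsFunHopfOrder H`), free over `ℤ_(ℓ)` on a basis of `Nat.card X` functions which is
`ℚ̄`-linearly independent, and which consists of `G_ℚ`-equivariant functions, exhibits `X` as the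
group of `ℚ̄`-points of a finite flat commutative group scheme over `ℤ_(ℓ)`
(`S56x.Dict.FFPoints.IsFFPoints ℓ X act`, the conclusion of the frozen statement S19 and the body
of `GaloisRepAdic.IsFlatAt`).
-/

set_option autoImplicit false

noncomputable section

namespace Fermat.Agent.S19x.HopfOrderFF

open Fermat.Agent.S19x.HopfOrder Fermat.Agent.S19x.Alg.FunOrder Fermat.Agent.S56x.Dict.FFPoints

local notation "Γℚ" => (AlgebraicClosure ℚ ≃ₐ[ℚ] AlgebraicClosure ℚ)
local notation "Qb" => AlgebraicClosure ℚ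

/-- the datum of `S19x/HopfOrder` attached to a function-level Hopf order with an independent
basis. -/
def datumOfFunHopfOrder {R : Type*} [CommRing R] {Ω : Type*} [Field Ω] [Algebra R Ω] {T : Type*}
    [AddCommGroup T] (H : Subalgebra R (T → Ω)) (hH : IsFunHopfOrder H) {κ : Type*} [Fintype κ]
    (b : Module.Basis κ R H) (hli : LinearIndependent Ω (fun i => ((b i : H) : T → Ω)))
    (hR : Function.Injective (algebraMap R Ω)) : Datum H.val κ :=
  Datum.ofSubalgebra H b hli hR
    (fun f hf => mem_boxProd_iff.1 (isDeltaClosed_iff.1 hH.delta f hf))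
    (fun f hf => isCounitClosed_iff.1 hH.counit f hf)
    (isAntipodeClosed_iff.1 hH.antipode)

theorem algebraMap_ratLocalizedAt_injective (ℓ : ℕ) :
    Function.Injective (algebraMap (GaloisRep.ratLocalizedAt ℓ) Qb) := by
  intro x y hxy
  have h : algebraMap ℚ Qb (x : ℚ) = algebraMap ℚ Qb (y : ℚ) := hxy
  exact Subtype.ext ((algebraMap ℚ Qb).injective h)

/-- **Function-level Hopf order ⟹ `IsFFPoints`.** -/
theorem isFFPoints_of_funHopfOrder (ℓ : ℕ) {X : Type} [AddCommGroup X] [Finite X]
    (act : Γℚ → X → X) (H : Subalgebra (GaloisRep.ratLocalizedAt ℓ) (X → Qb))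
    (hH : IsFunHopfOrder H) {κ : Type*} [Fintype κ]
    (b : Module.Basis κ (GaloisRep.ratLocalizedAt ℓ) H)
    (hli : LinearIndependent Qb (fun i => ((b i : H) : X → Qb)))
    (hcard : Fintype.card κ = Nat.card X)
    (hequiv : ∀ f ∈ H, ∀ (σ : Γℚ) (t : X), f (act σ t) = σ (f t)) :
    IsFFPoints ℓ X act := by
  obtain ⟨inst, h1, h2, h3, e, he1, he2⟩ :=
    exists_hopfAlgebra
      (datumOfFunHopfOrder H hH b hli (algebraMap_ratLocalizedAt_injective ℓ)) hcard
      (fun (σ : Γℚ) (x : Qb) => σ x) act (fun σ a t => hequiv a a.2 σ t)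
  exact ⟨Carrier H, inferInstance, inst, h1, h2, h3, e, he1, he2⟩

end Fermat.Agent.S19x.HopfOrderFF
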