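/-
P-S19 (S19 then S32), INTERFACE between BLOCK A (geometry, architect helper22) and BLOCK B
(algebra, architect helper35).  Board key `S19_IFACE`.

`LocalChartData ℓ P X act` : the finite abelian group `X` with its `G_ℚ`-action `act`, seen at a
valuation subring `P` of `ℚ̄` over `ℓ`, carries integral coordinates on the cosets of the
kernel of reduction `T1`, in which the group law is approximated, to every `ℓ`-adic precision,
by polynomials with coefficients in `O^ur = inertiaInt P`.
(v2: the field `neg_approx` of v1 is dropped: BLOCK B gets the antipode from `f(-t) = f((N-1)t)`.)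

BLOCK A produces it for every finite `G_ℚ`-stable subgroup of `JZero M` (`M` a good level prime to
`ℓ`); BLOCK B turns it (together with `Finite X`, additivity, action axioms and open stabilisers)
into `Fermat.Agent.S56x.Dict.FFPoints.IsFFPoints ℓ X act`.
-/
import Mathlib
import Fermat.Agent.S56x.Flat.InertiaField
import Fermat.Agent.S56x.Dict.FFPoints

set_option autoImplicit false

noncomputable section

namespace Fermat.Agent.S19x

open Fermat.Agent.S56x.Flat.InertiaField

local notation "Qbar" => AlgebraicClosure ℚ
local notation "Γℚ" => (AlgebraicClosure ℚ ≃ₐ[ℚ] AlgebraicClosure ℚ)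

/-- Interface A → B.  All fields are statements about finitely many `ℚ̄`-valued functions on the
finite set `X`.  `coord Q` = the `g` integral coordinates `X(Q - P_c)` of `Q` relative to an
inertia-fixed base point `P_c` of its coset `c = Q + T1`. -/
structure LocalChartData (ℓ : ℕ) (P : ValuationSubring Qbar) (X : Type) [AddCommGroup X]
    (act : Γℚ → X → X) where
  /-- number of coordinates (the genus) -/
  g : ℕ
  /-- `T ∩ ker(red)` -/
  T1 : AddSubgroup X
  /-- the coordinates of `Q` relative to the base point of its coset -/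
  coord : X → Fin g → Qbar
  /-- the coordinates lie in the maximal ideal of `P` -/
  coord_mem : ∀ Q i, coord Q i ∈ P.nonunits
  /-- inertia-equivariance of the coordinates -/
  coord_inertia : ∀ σ ∈ P.inertiaSubgroupIn ℚ, ∀ Q i, coord (act σ Q) i = σ (coord Q i)
  /-- inertia preserves every coset of `T1` -/
  inertia_coset : ∀ σ ∈ P.inertiaSubgroupIn ℚ, ∀ Q, act σ Q - Q ∈ T1
  /-- the coordinates separate the points of each coset -/
  coord_inj : ∀ Q Q', Q - Q' ∈ T1 → coord Q = coord Q' → Q = Q'
  /-- the group law in coordinates, on each pair of cosets `(t1 + T1, t2 + T1)`, to precision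
  `ℓ ^ n`: ONE polynomial vector over `O^ur` for the whole pair of cosets. -/
  add_approx : ∀ (t1 t2 : X) (n : ℕ),
    ∃ F : Fin g → MvPolynomial (Fin g ⊕ Fin g) (inertiaInt P),
      ∀ Q1 Q2, Q1 - t1 ∈ T1 → Q2 - t2 ∈ T1 → ∀ i, ∃ w ∈ P,
        coord (Q1 + Q2) i - MvPolynomial.aeval (Sum.elim (coord Q1) (coord Q2)) (F i)
          = (ℓ : Qbar) ^ n * w

/-- What BLOCK B proves (statement only; the proof lives in `S19x/Alg/**`). -/
def ChartToFFPoints : Prop :=
  ∀ (ℓ : ℕ) [Fact ℓ.Prime] (P : ValuationSubring Qbar), P.LiesOverPrime ℓ →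
    ∀ (X : Type) [AddCommGroup X] [Finite X] (act : Γℚ → X → X),
      (∀ σ x y, act σ (x + y) = act σ x + act σ y) → (∀ x, act 1 x = x) →
      (∀ σ τ x, act (σ * τ) x = act σ (act τ x)) →
      (∀ x, ∃ L : IntermediateField ℚ Qbar, FiniteDimensional ℚ L ∧
        ∀ σ : Γℚ, (∀ a ∈ L, σ a = a) → act σ x = x) →
      LocalChartData ℓ P X act →
      Fermat.Agent.S56x.Dict.FFPoints.IsFFPoints ℓ X act

end Fermat.Agent.S19x
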