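/-
P-S19, block (C) / stage 1 (helper87): closure of `IsFFPoints` under Galois-stable subgroups.

If `X` is, equivariantly, the group of `ℚ̄`-points of a finite flat commutative group scheme over
`ℤ_(p)` (Hopf algebra `H`), and `Y ≤ X` is a Galois-stable subgroup, then so is `Y`: the Hopf
algebra is `H ⧸ I`, `I` the ideal of elements vanishing at all points of `Y` (schematic closure).
-/
import Mathlib
import Fermat.Agent.S56x.Dict.FFPoints
import Fermat.Agent.S56x.Flat.PointsSeparate
import Fermat.Agent.S56x.Fontaine.PointsRational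
import Fermat.Agent.S28.Gauss

set_option autoImplicit false
set_option linter.style.haveILetI false
set_option linter.unusedSectionVars false
set_option linter.overlappingInstances false

noncomputable section

namespace Fermat.Agent.S19x.FFSub

open scoped TensorProduct
open WithConv Coalgebra Bialgebra HopfAlgebra

local notation "Γℚ" => (AlgebraicClosure ℚ ≃ₐ[ℚ] AlgebraicClosure ℚ)
local notation "Qb" => AlgebraicClosure ℚ

section Conj

variable {R H : Type*} [CommRing R] [CommRing H] [Algebra R H] [Algebra R Qb]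

/-- Two `ℚ̄`-points with the same kernel are conjugate under `G_ℚ`. -/
theorem exists_galois_of_ker_eq (x y : H →ₐ[R] Qb)
    (hyx : RingHom.ker (y : H →+* Qb) ≤ RingHom.ker (x : H →+* Qb))
    (hxy : RingHom.ker (x : H →+* Qb) ≤ RingHom.ker (y : H →+* Qb)) :
    ∃ σ : Γℚ, ∀ h : H, x h = σ (y h) := by
  classical
  set 𝔭 : Ideal H := RingHom.ker (y : H →+* Qb) with h𝔭
  haveI : 𝔭.IsPrime := RingHom.ker_isPrime _
  let ybar : H ⧸ 𝔭 →+* Qb := Ideal.Quotient.lift 𝔭 (y : H →+* Qb) (fun a ha => ha)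
  let xbar : H ⧸ 𝔭 →+* Qb := Ideal.Quotient.lift 𝔭 (x : H →+* Qb) (fun a ha => hyx ha)
  have hybar : Function.Injective ybar := by
    rw [injective_iff_map_eq_zero]
    intro a
    obtain ⟨a, rfl⟩ := Ideal.Quotient.mk_surjective a
    intro ha
    rw [Ideal.Quotient.eq_zero_iff_mem]
    exact ha
  have hxbar : Function.Injective xbar := by
    rw [injective_iff_map_eq_zero]
    intro a
    obtain ⟨a, rfl⟩ := Ideal.Quotient.mk_surjective a
    intro ha
    rw [Ideal.Quotient.eq_zero_iff_mem]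
    exact hxy ha
  let L := FractionRing (H ⧸ 𝔭)
  let xL : L →+* Qb := IsFractionRing.lift hxbar
  let yL : L →+* Qb := IsFractionRing.lift hybar
  haveI : CharZero L := xL.charZero
  let f : L →ₐ[ℚ] Qb := xL.toRatAlgHom
  letI : Algebra L Qb := yL.toAlgebra
  haveI : IsScalarTower ℚ L Qb := IsScalarTower.of_algebraMap_eq (fun q =>
    DFunLike.congr_fun (Subsingleton.elim (algebraMap ℚ Qb) (yL.comp (algebraMap ℚ L))) q)
  haveI : Algebra.IsAlgebraic ℚ Qb := AlgebraicClosure.isAlgebraic ℚ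
  haveI : Algebra.IsAlgebraic L Qb := Algebra.IsAlgebraic.tower_top (K := ℚ) L
  obtain ⟨φ, hφ⟩ := IsAlgClosed.surjective_domRestrict_of_isAlgebraic (K := ℚ) (L := L)
    (M := Qb) (E := Qb) f
  refine ⟨AlgEquiv.ofBijective φ (Algebra.IsAlgebraic.algHom_bijective φ), fun h => ?_⟩
  have h1 := DFunLike.congr_fun hφ (algebraMap (H ⧸ 𝔭) L (Ideal.Quotient.mk 𝔭 h))
  have h2 : f (algebraMap (H ⧸ 𝔭) L (Ideal.Quotient.mk 𝔭 h)) = x h := by
    show xL _ = _
    rw [IsFractionRing.lift_algebraMap]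
    rfl
  have h3 : algebraMap L Qb (algebraMap (H ⧸ 𝔭) L (Ideal.Quotient.mk 𝔭 h)) = y h := by
    show yL _ = _
    rw [IsFractionRing.lift_algebraMap]
    rfl
  rw [h2] at h1
  rw [← h1]
  show _ = φ (y h)
  rw [← h3]
  rfl

end Conj


section Main

variable {R : Type} [CommRing R] [IsDomain R] [Algebra R Qb]
  {H : Type} [CommRing H] [HopfAlgebra R H]

/-- the ideal of elements vanishing at all points of `S`. -/
def vanishIdeal (S : Set (WithConv (H →ₐ[R] Qb))) : Ideal H where
  carrier := {h | ∀ f ∈ S, f h = 0}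
  add_mem' := by
    intro a b ha hb f hf
    show f.ofConv (a + b) = 0
    rw [map_add]
    have h1 : f.ofConv a = 0 := ha f hf
    have h2 : f.ofConv b = 0 := hb f hf
    rw [h1, h2, add_zero]
  zero_mem' := by
    intro f _
    show f.ofConv 0 = 0
    exact map_zero _
  smul_mem' := by
    intro c a ha f hf
    show f.ofConv (c • a) = 0
    rw [smul_eq_mul, map_mul]
    have h1 : f.ofConv a = 0 := ha f hf
    rw [h1, mul_zero]

theorem mem_vanishIdeal {S : Set (WithConv (H →ₐ[R] Qb))} {h : H} :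
    h ∈ vanishIdeal S ↔ ∀ f ∈ S, f.ofConv h = 0 := Iff.rfl

variable (hinj : Function.Injective (algebraMap R Qb))

include hinj in
/-- incomparability: for points of a module-finite algebra, `ker f ≤ ker x` forces equality. -/
theorem ker_le_of_ker_le [Module.Finite R H] (f x : H →ₐ[R] Qb)
    (hle : RingHom.ker (f : H →+* Qb) ≤ RingHom.ker (x : H →+* Qb)) :
    RingHom.ker (x : H →+* Qb) ≤ RingHom.ker (f : H →+* Qb) := by
  by_contra hcon
  obtain ⟨a, hax, haf⟩ := Set.not_subset.mp hcon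
  haveI : (RingHom.ker (f : H →+* Qb)).IsPrime := RingHom.ker_isPrime _
  have hint : IsIntegral R a := (Algebra.IsIntegral.of_finite R H).isIntegral a
  have hlt := Ideal.comap_lt_comap_of_integral_mem_sdiff hle ⟨hax, haf⟩ hint
  have hbot : (RingHom.ker (x : H →+* Qb)).comap (algebraMap R H) = ⊥ := by
    rw [eq_bot_iff]
    intro r hr
    rw [Ideal.mem_comap, RingHom.mem_ker] at hr
    have h1 : (x : H →+* Qb) (algebraMap R H r) = algebraMap R Qb r := x.commutes r
    rw [h1] at hr
    rw [Ideal.mem_bot]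
    exact hinj (by rw [hr, map_zero])
  rw [hbot] at hlt
  exact not_lt_bot hlt


open Fermat.Agent.S56x.Fontaine.PointsRational in
include hinj in
/-- a point vanishing on the ideal of a Galois-stable set of points belongs to the set. -/
theorem mem_of_vanish [Module.Finite R H] (S : Set (WithConv (H →ₐ[R] Qb)))
    (hgal : ∀ (σ : Γℚ) (f g : WithConv (H →ₐ[R] Qb)), f ∈ S → (∀ h, g h = σ (f h)) → g ∈ S)
    (x : WithConv (H →ₐ[R] Qb)) (hx : ∀ h ∈ vanishIdeal S, x h = 0) : x ∈ S := by
  classical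
  haveI : Finite (H →ₐ[R] Qb) := finite_points
  haveI : Finite (WithConv (H →ₐ[R] Qb)) := Finite.of_injective ofConv ofConv_injective
  letI := Fintype.ofFinite (WithConv (H →ₐ[R] Qb))
  let s : Finset (WithConv (H →ₐ[R] Qb)) := Finset.univ.filter (· ∈ S)
  let k : WithConv (H →ₐ[R] Qb) → Ideal H := fun f => RingHom.ker (f.ofConv : H →+* Qb)
  have hI : s.inf k ≤ RingHom.ker (x.ofConv : H →+* Qb) := by
    intro a ha
    rw [Submodule.mem_finsetInf] at ha
    rw [RingHom.mem_ker]
    apply hx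
    intro f hf
    have := ha f (by simp [s, hf])
    exact this
  obtain ⟨f, hf, hfx⟩ := (Ideal.IsPrime.inf_le' (RingHom.ker_isPrime _)).mp hI
  have hfS : f ∈ S := by simpa [s] using hf
  have hxf := ker_le_of_ker_le hinj f.ofConv x.ofConv hfx
  obtain ⟨σ, hσ⟩ := exists_galois_of_ker_eq x.ofConv f.ofConv hfx hxf
  exact hgal σ f x hfS hσ

open Fermat.Agent.S56x.Fontaine.PointsRational in
include hinj in
/-- an element vanishing at all points outside `S` and at no point of `S`. -/
theorem exists_separator [Module.Finite R H] (S : Set (WithConv (H →ₐ[R] Qb)))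
    (hgal : ∀ (σ : Γℚ) (f g : WithConv (H →ₐ[R] Qb)), f ∈ S → (∀ h, g h = σ (f h)) → g ∈ S) :
    ∃ d : H, (∀ f : WithConv (H →ₐ[R] Qb), f ∉ S → f d = 0) ∧
      ∀ f : WithConv (H →ₐ[R] Qb), f ∈ S → f d ≠ 0 := by
  classical
  haveI : Finite (H →ₐ[R] Qb) := finite_points
  haveI : Finite (WithConv (H →ₐ[R] Qb)) := Finite.of_injective ofConv ofConv_injective
  letI := Fintype.ofFinite (WithConv (H →ₐ[R] Qb))
  let s : Finset (WithConv (H →ₐ[R] Qb)) := Finset.univ.filter (· ∈ S)
  let t : Finset (WithConv (H →ₐ[R] Qb)) := Finset.univ.filter (· ∉ S)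
  let k : WithConv (H →ₐ[R] Qb) → Ideal H := fun f => RingHom.ker (f.ofConv : H →+* Qb)
  by_contra hcon
  push Not at hcon
  have hsub : ((t.inf k : Ideal H) : Set H) ⊆ ⋃ f ∈ (↑s : Set (WithConv (H →ₐ[R] Qb))), (k f : Set H) := by
    intro d hd
    have hd' : d ∈ t.inf k := hd
    rw [Submodule.mem_finsetInf] at hd'
    obtain ⟨f, hfS, hfd⟩ := hcon d (fun f hf => hd' f (by simp [t, hf]))
    simp only [Set.mem_iUnion]
    exact ⟨f, by simp [s, hfS], hfd⟩
  obtain ⟨f, hf, hle⟩ := (Ideal.subset_union_prime (1 : WithConv (H →ₐ[R] Qb)) 1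
    (fun i _ _ _ => RingHom.ker_isPrime _)).mp hsub
  have hfS : f ∈ S := by simpa [s] using hf
  obtain ⟨x, hx, hxf⟩ := (Ideal.IsPrime.inf_le' (RingHom.ker_isPrime _)).mp hle
  have hxS : x ∉ S := by simpa [t] using hx
  have hfx := ker_le_of_ker_le hinj x.ofConv f.ofConv hxf
  obtain ⟨σ, hσ⟩ := exists_galois_of_ker_eq x.ofConv f.ofConv hfx hxf
  exact hxS (hgal σ f x hfS hσ)


/-- the inverse of a point (composition with the antipode). -/
def cinv (f : WithConv (H →ₐ[R] Qb)) : WithConv (H →ₐ[R] Qb) :=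
  toConv (f.ofConv.comp (HopfAlgebra.antipodeAlgHom R H))

theorem cinv_apply (f : WithConv (H →ₐ[R] Qb)) (a : H) :
    cinv f a = f (HopfAlgebra.antipode R a) := rfl

theorem cinv_mul (f : WithConv (H →ₐ[R] Qb)) : cinv f * f = 1 := by
  apply WithConv.ofConv_injective
  ext a
  show (cinv f * f) a = (1 : WithConv (H →ₐ[R] Qb)) a
  rw [AlgHom.convMul_apply, AlgHom.convOne_apply, ← (ℛ R a).eq, map_sum]
  simp only [Algebra.TensorProduct.lift_tmul]
  rw [← f.ofConv.commutes, ← HopfAlgebra.sum_antipode_mul_eq_algebraMap_counit (ℛ R a), map_sum]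
  refine Finset.sum_congr rfl (fun i _ => ?_)
  rw [map_mul]
  rfl

section Quot

variable [IsDedekindDomain R] [Module.Finite R H] [Module.Flat R H]
  (S : Set (WithConv (H →ₐ[R] Qb)))

include hinj in
/-- `H ⧸ vanishIdeal S` is torsion-free. -/
theorem isTorsionFree_quot : Module.IsTorsionFree R (H ⧸ vanishIdeal S) where
  isSMulRegular r hr := by
    have hr0 : r ≠ 0 := hr.ne_zero
    intro a b hab
    obtain ⟨a, rfl⟩ := Ideal.Quotient.mk_surjective a
    obtain ⟨b, rfl⟩ := Ideal.Quotient.mk_surjective b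
    have h1 : Ideal.Quotient.mk (vanishIdeal S) (r • a) =
        Ideal.Quotient.mk (vanishIdeal S) (r • b) := hab
    rw [Ideal.Quotient.eq] at h1 ⊢
    rw [mem_vanishIdeal] at h1 ⊢
    intro f hf
    have h2 := h1 f hf
    rw [← smul_sub, map_smul, Algebra.smul_def, mul_eq_zero] at h2
    rcases h2 with h2 | h2
    · exact absurd (hinj (by rw [h2, map_zero])) hr0
    · exact h2

include hinj in
theorem flat_quot : Module.Flat R (H ⧸ vanishIdeal S) := by
  haveI := isTorsionFree_quot hinj S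
  infer_instance

/-- multiplication by the class of an element not vanishing on `S` is injective on the quotient. -/
theorem mulLeft_injective_of_ne_zero (d : H) (hd : ∀ f : WithConv (H →ₐ[R] Qb), f ∈ S → f d ≠ 0) :
    Function.Injective (LinearMap.mulLeft R (Ideal.Quotient.mk (vanishIdeal S) d)) := by
  rw [injective_iff_map_eq_zero]
  intro c
  obtain ⟨c, rfl⟩ := Ideal.Quotient.mk_surjective c
  intro hc
  have h1 : Ideal.Quotient.mk (vanishIdeal S) (d * c) = 0 := by
    rw [map_mul]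
    exact hc
  rw [Ideal.Quotient.eq_zero_iff_mem, mem_vanishIdeal] at h1 ⊢
  intro f hf
  have h2 := h1 f hf
  rw [map_mul, mul_eq_zero] at h2
  rcases h2 with h2 | h2
  · exact absurd h2 (hd f hf)
  · exact h2


open Fermat.Agent.S56x.Flat in
include hinj in
/-- the coideal property of `vanishIdeal S` for a Galois-stable set of points closed under
convolution. -/
theorem map_mk_comul_eq_zero
    (hmul : ∀ f g : WithConv (H →ₐ[R] Qb), f ∈ S → g ∈ S → f * g ∈ S)
    (hgal : ∀ (σ : Γℚ) (f g : WithConv (H →ₐ[R] Qb)), f ∈ S → (∀ h, g h = σ (f h)) → g ∈ S)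
    {a : H} (ha : a ∈ vanishIdeal S) :
    Algebra.TensorProduct.map (Ideal.Quotient.mkₐ R (vanishIdeal S))
      (Ideal.Quotient.mkₐ R (vanishIdeal S)) (Coalgebra.comul (R := R) a) = 0 := by
  obtain ⟨d, hd0, hd1⟩ := exists_separator hinj S hgal
  set π := Ideal.Quotient.mkₐ R (vanishIdeal S) with hπ
  -- step 1 : `(d ⊗ d) * Δ a` vanishes at all points of `H ⊗ H`
  have h1 : (d ⊗ₜ[R] d) * Coalgebra.comul (R := R) a = 0 := by
    refine PointsSeparate.eq_of_forall_point_eq (R := R) Qb (H := H ⊗[R] H) Qb hinj (fun g => ?_)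
    rw [map_zero, map_mul]
    set x1 : WithConv (H →ₐ[R] Qb) := toConv (g.comp Algebra.TensorProduct.includeLeft) with hx1
    set x2 : WithConv (H →ₐ[R] Qb) := toConv (g.comp Algebra.TensorProduct.includeRight) with hx2
    have hgd : g (d ⊗ₜ[R] d) = x1 d * x2 d := by
      have h : (d ⊗ₜ[R] d : H ⊗[R] H) = (d ⊗ₜ[R] 1) * (1 ⊗ₜ[R] d) := by
        rw [Algebra.TensorProduct.tmul_mul_tmul, mul_one, one_mul]
      rw [h, map_mul]
      rfl
    by_cases h1S : x1 ∈ S
    · by_cases h2S : x2 ∈ S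
      · have h12 := hmul x1 x2 h1S h2S
        have h3 : (x1 * x2) a = 0 := (mem_vanishIdeal.mp ha) _ h12
        rw [AlgHom.convMul_apply] at h3
        have hg : g = Algebra.TensorProduct.lift x1.ofConv x2.ofConv (fun _ _ => .all ..) := by
          ext x
          · simp [x1]
          · simp [x2]
        rw [hg, h3, mul_zero]
      · rw [hgd, hd0 x2 h2S, mul_zero, zero_mul]
    · rw [hgd, hd0 x1 h1S, zero_mul, zero_mul]
  -- step 2 : push to the quotient
  have h2 := congrArg (Algebra.TensorProduct.map π π) h1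
  rw [map_mul, map_zero, Algebra.TensorProduct.map_tmul] at h2
  -- step 3 : `π d ⊗ π d` is a non-zero-divisor
  haveI := flat_quot hinj S
  have hm := mulLeft_injective_of_ne_zero S d hd1
  set m := LinearMap.mulLeft R (Ideal.Quotient.mk (vanishIdeal S) d) with hmdef
  have key : ∀ z : (H ⧸ vanishIdeal S) ⊗[R] (H ⧸ vanishIdeal S),
      (π d ⊗ₜ[R] π d) * z = (m.rTensor _) ((m.lTensor _) z) := by
    intro z
    induction z using TensorProduct.induction_on with
    | zero => simp
    | tmul u v =>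
      rw [Algebra.TensorProduct.tmul_mul_tmul, LinearMap.lTensor_tmul, LinearMap.rTensor_tmul]
      rfl
    | add z w hz hw => rw [mul_add, hz, hw, map_add, map_add]
  rw [key] at h2
  have hL1 := Module.Flat.rTensor_preserves_injective_linearMap (M := H ⧸ vanishIdeal S) m hm
  have hL2 := Module.Flat.lTensor_preserves_injective_linearMap (M := H ⧸ vanishIdeal S) m hm
  apply hL2
  apply hL1
  rw [h2, map_zero, map_zero]


include hinj in
theorem counit_eq_zero_of_mem (h1 : (1 : WithConv (H →ₐ[R] Qb)) ∈ S) {a : H}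
    (ha : a ∈ vanishIdeal S) : Coalgebra.counit (R := R) a = 0 := by
  have h2 : (1 : WithConv (H →ₐ[R] Qb)) a = 0 := (mem_vanishIdeal.mp ha) _ h1
  rw [AlgHom.convOne_apply] at h2
  exact hinj (by rw [h2, map_zero])

theorem antipode_mem_of_mem
    (hinv : ∀ f : WithConv (H →ₐ[R] Qb), f ∈ S → cinv f ∈ S) {a : H}
    (ha : a ∈ vanishIdeal S) : HopfAlgebra.antipode R a ∈ vanishIdeal S := by
  rw [mem_vanishIdeal]
  intro f hf
  have h2 : (cinv f) a = 0 := (mem_vanishIdeal.mp ha) _ (hinv f hf)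
  exact h2

include hinj in
theorem isHopfIdeal (h1 : (1 : WithConv (H →ₐ[R] Qb)) ∈ S)
    (hmul : ∀ f g : WithConv (H →ₐ[R] Qb), f ∈ S → g ∈ S → f * g ∈ S)
    (hinv : ∀ f : WithConv (H →ₐ[R] Qb), f ∈ S → cinv f ∈ S)
    (hgal : ∀ (σ : Γℚ) (f g : WithConv (H →ₐ[R] Qb)), f ∈ S → (∀ h, g h = σ (f h)) → g ∈ S) :
    (vanishIdeal S).IsHopfIdeal R := by
  haveI hco : ((vanishIdeal S).restrictScalars R).IsCoideal :=
    { counit_eq_zero := fun a ha => counit_eq_zero_of_mem hinj S h1 ha
      map_mkQ_comul_eq_zero := fun a ha => map_mk_comul_eq_zero hinj S hmul hgal ha }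
  exact { antipode_mem := fun a ha => antipode_mem_of_mem S hinv ha }


/-- a point of `S` as a point of the quotient. -/
def liftPt (f : WithConv (H →ₐ[R] Qb)) (hf : f ∈ S) :
    WithConv ((H ⧸ vanishIdeal S) →ₐ[R] Qb) :=
  toConv (Ideal.Quotient.liftₐ (vanishIdeal S) f.ofConv
    (fun _ ha => (mem_vanishIdeal.mp ha) f hf))

theorem liftPt_comp (f : WithConv (H →ₐ[R] Qb)) (hf : f ∈ S) :
    (liftPt S f hf).ofConv.comp (Ideal.Quotient.mkₐ R (vanishIdeal S)) = f.ofConv :=
  Ideal.Quotient.liftₐ_comp _ _ _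

theorem liftPt_eq (f : WithConv (H →ₐ[R] Qb)) (hf : f ∈ S)
    (f' : WithConv ((H ⧸ vanishIdeal S) →ₐ[R] Qb))
    (h : f.ofConv = f'.ofConv.comp (Ideal.Quotient.mkₐ R (vanishIdeal S))) :
    liftPt S f hf = f' := by
  apply WithConv.ofConv_injective
  apply Ideal.Quotient.algHom_ext
  rw [liftPt_comp, h]

end Quot

end Main

section Final

open Fermat.Agent.S56x.Dict.FFPoints

variable {p : ℕ} [Fact p.Prime]

local notation "Zp" => GaloisRep.ratLocalizedAt p

theorem algebraMap_Zp_injective : Function.Injective (algebraMap Zp Qb) := by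
  intro a b hab
  apply Subtype.ext
  exact (algebraMap ℚ Qb).injective hab

/-- cocommutativity passes to the quotient by a Hopf ideal. -/
theorem isCocomm_quot {R : Type} [CommRing R] {H : Type} [CommRing H] [HopfAlgebra R H]
    [Coalgebra.IsCocomm R H] (I : Ideal H) [I.IsHopfIdeal R] : Coalgebra.IsCocomm R (H ⧸ I) where
  comm_comp_comul := by
    apply LinearMap.ext
    intro q
    obtain ⟨a, rfl⟩ := Ideal.Quotient.mk_surjective q
    show TensorProduct.comm R (H ⧸ I) (H ⧸ I) (Coalgebra.comul (Ideal.Quotient.mk I a)) =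
      Coalgebra.comul (Ideal.Quotient.mk I a)
    rw [Bialgebra.Quotient.comul_mk, ← TensorProduct.map_comm, Coalgebra.comm_comul]

/-- **closure of `IsFFPoints` under Galois-stable subgroups.** -/
theorem isFFPoints_of_addSubgroup {X : Type} [AddCommGroup X] {act : Γℚ → X → X}
    (h : IsFFPoints p X act) (Y : AddSubgroup X) (hY : ∀ (σ : Γℚ) (y : X), y ∈ Y → act σ y ∈ Y) :
    IsFFPoints p Y (fun σ y => ⟨act σ y.1, hY σ y.1 y.2⟩) := by
  obtain ⟨H, i1, i2, hfin, hflat, hco, e, hadd, heq⟩ := h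
  have hinj : Function.Injective (algebraMap Zp Qb) := algebraMap_Zp_injective
  have he1 : e 1 = 0 := by
    have := hadd 1 1
    rw [mul_one] at this
    exact left_eq_add.mp this
  set S : Set (WithConv (H →ₐ[Zp] Qb)) := {f | e f ∈ Y} with hS
  have h1 : (1 : WithConv (H →ₐ[Zp] Qb)) ∈ S := by
    show e 1 ∈ Y
    rw [he1]
    exact Y.zero_mem
  have hmul : ∀ f g : WithConv (H →ₐ[Zp] Qb), f ∈ S → g ∈ S → f * g ∈ S := by
    intro f g hf hg
    show e (f * g) ∈ Y
    rw [hadd]
    exact Y.add_mem hf hg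
  have hinv : ∀ f : WithConv (H →ₐ[Zp] Qb), f ∈ S → cinv f ∈ S := by
    intro f hf
    show e (cinv f) ∈ Y
    have h2 : e (cinv f) + e f = 0 := by rw [← hadd, cinv_mul, he1]
    have h3 : e (cinv f) = - e f := eq_neg_of_add_eq_zero_left h2
    rw [h3]
    exact Y.neg_mem hf
  have hgal : ∀ (σ : Γℚ) (f g : WithConv (H →ₐ[Zp] Qb)), f ∈ S → (∀ h, g h = σ (f h)) → g ∈ S := by
    intro σ f g hf hfg
    show e g ∈ Y
    rw [heq σ f g hfg]
    exact hY σ _ hf
  haveI : (vanishIdeal S).IsHopfIdeal Zp := isHopfIdeal hinj S h1 hmul hinv hgal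
  haveI : Coalgebra.IsCocomm Zp (H ⧸ vanishIdeal S) := isCocomm_quot (vanishIdeal S)
  haveI : Module.Flat Zp (H ⧸ vanishIdeal S) := flat_quot hinj S
  refine ⟨H ⧸ vanishIdeal S, inferInstance, inferInstance, inferInstance, inferInstance,
    inferInstance, ?_⟩
  -- the points
  have hmemS : ∀ f' : WithConv ((H ⧸ vanishIdeal S) →ₐ[Zp] Qb),
      toConv (f'.ofConv.comp (Ideal.Quotient.mkₐ Zp (vanishIdeal S))) ∈ S := by
    intro f'
    apply mem_of_vanish hinj S hgal
    intro a ha
    show f'.ofConv (Ideal.Quotient.mk (vanishIdeal S) a) = 0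
    rw [Ideal.Quotient.eq_zero_iff_mem.mpr ha, map_zero]
  have hsymm : ∀ y : Y, e.symm y.1 ∈ S := by
    intro y
    show e (e.symm y.1) ∈ Y
    rw [Equiv.apply_symm_apply]
    exact y.2
  let e' : WithConv ((H ⧸ vanishIdeal S) →ₐ[Zp] Qb) ≃ Y :=
    { toFun := fun f' => ⟨e (toConv (f'.ofConv.comp (Ideal.Quotient.mkₐ Zp (vanishIdeal S)))),
        hmemS f'⟩
      invFun := fun y => liftPt S (e.symm y.1) (hsymm y)
      left_inv := by
        intro f'
        apply liftPt_eq
        show (e.symm (e (toConv (f'.ofConv.comp (Ideal.Quotient.mkₐ Zp (vanishIdeal S)))))).ofConv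
          = _
        rw [Equiv.symm_apply_apply]
      right_inv := by
        intro y
        apply Subtype.ext
        show e (toConv ((liftPt S (e.symm y.1) (hsymm y)).ofConv.comp
          (Ideal.Quotient.mkₐ Zp (vanishIdeal S)))) = y.1
        rw [liftPt_comp, WithConv.toConv_ofConv, Equiv.apply_symm_apply] }
  refine ⟨e', fun f g => ?_, fun σ f g hfg => ?_⟩
  · apply Subtype.ext
    show e (toConv ((f * g).ofConv.comp (Ideal.Quotient.mkₐ Zp (vanishIdeal S)))) =
      e (toConv (f.ofConv.comp (Ideal.Quotient.mkₐ Zp (vanishIdeal S)))) +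
        e (toConv (g.ofConv.comp (Ideal.Quotient.mkₐ Zp (vanishIdeal S))))
    rw [← hadd]
    congr 1
    apply WithConv.ofConv_injective
    exact AlgHom.convMul_comp_bialgHom_distrib f g (Bialgebra.Quotient.mkBialgHom (vanishIdeal S))
  · apply Subtype.ext
    show e (toConv (g.ofConv.comp (Ideal.Quotient.mkₐ Zp (vanishIdeal S)))) =
      act σ (e (toConv (f.ofConv.comp (Ideal.Quotient.mkₐ Zp (vanishIdeal S)))))
    apply heq σ
    intro a
    exact hfg (Ideal.Quotient.mk (vanishIdeal S) a)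

end Final

end Fermat.Agent.S19x.FFSub
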