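/-
P-S19, block (B) pure algebra (helper75): Galois descent for lattices of equivariant functions.
Mathlib only.

Setting: a monoid `Γ` acts on a field `Ω` by ring endomorphisms (`MulSemiringAction Γ Ω`) with fixed
field the image of `k` (hypothesis `hfix`), and on a set `Y` through a plain function
`act : Γ → Y → Y` with every `act σ` surjective (hypothesis `hact`; see `surjective_act`).
`IsEquivariantFun act f` : `f (act σ y) = σ • f y`.

* `linearIndependent_of_equivariant` (Artin/Dedekind): `k`-linearly independent equivariant functions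
  `Y → Ω` are `Ω`-linearly independent.
* `subalgebra_eq_top_of_separates` : an `Ω`-subalgebra of `Y → Ω` (`Y` finite) that separates the
  points of `Y` is everything; `span_eq_top_of_separates` : the `Ω`-span of an `R`-subalgebra of
  `Y → Ω` separating points is `⊤`.
* for `R` with fraction field `k` and an `R`-subalgebra `H ≤ (Y → Ω)` of equivariant functions
  (`hH`) separating the points of the finite set `Y` (`hsep`):
  - `linearIndependent_coe_of_linearIndependent` : `R`-independent families in `H` are
    `Ω`-independent functions;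
  - `basisFun`, `basisFun_apply` : an `R`-basis of `H` is an `Ω`-basis of `Y → Ω`;
  - `card_eq_of_basis` : an `R`-basis of `H` has `|Y|` elements;
  - `det_ne_zero_of_basis` : the evaluation matrix `(b i (e j))` of a basis `b : Basis ι R H` along
    `e : ι ≃ Y` has nonzero determinant;
  - `exists_basis_det_ne_zero` : `R` a PID, `H` module-finite: there is
    `b : Basis (Fin (Nat.card Y)) R H` with `det (b i (e j)) ≠ 0` for every `e : Fin _ ≃ Y`
    (the hypotheses "free with basis of size `|T|`" and "(i)" of the matrix-form Hopf-order lemma);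
  - `equivariant_mem_span` : every equivariant function lies in the `k`-span of `H`;
  - `tensorEval`, `tensorEval_injective` : `H ⊗[R] H → (Y × Y → Ω)`, `f ⊗ g ↦ f(y) g(y')`, is
    injective when `H` is finite free; `linearIndependent_mul_of_linearIndependent`.
* convenience: `surjective_act`, `fixed_mem_range_of_isGalois`, `smul_algebraMap_of_algEquiv`.
-/
import Mathlib

set_option autoImplicit false
set_option linter.style.haveILetI false
set_option linter.unusedSectionVars false

noncomputable section

namespace Fermat.Agent.S19x.EquivFunDescent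

open scoped TensorProduct

/-! ### Equivariant functions -/

section Artin

variable {Γ : Type*} [Monoid Γ] {k Ω : Type*} [Field k] [Field Ω] [Algebra k Ω]
  [MulSemiringAction Γ Ω] {Y : Type*} (act : Γ → Y → Y)

/-- `f : Y → Ω` is `Γ`-equivariant, for the action `act` of `Γ` on `Y` (a plain function) and the
given action of `Γ` on `Ω`. -/
def IsEquivariantFun (f : Y → Ω) : Prop := ∀ (σ : Γ) (y : Y), f (act σ y) = σ • f y

variable {act}

theorem IsEquivariantFun.add {f g : Y → Ω} (hf : IsEquivariantFun act f) (hg : IsEquivariantFun act g) :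
    IsEquivariantFun act (f + g) := fun σ y => by
  simp only [Pi.add_apply, hf σ y, hg σ y, smul_add]

theorem IsEquivariantFun.mul {f g : Y → Ω} (hf : IsEquivariantFun act f) (hg : IsEquivariantFun act g) :
    IsEquivariantFun act (f * g) := fun σ y => by
  simp only [Pi.mul_apply, hf σ y, hg σ y, smul_mul']

theorem IsEquivariantFun.neg {f : Y → Ω} (hf : IsEquivariantFun act f) :
    IsEquivariantFun act (-f) := fun σ y => by
  simp only [Pi.neg_apply, hf σ y, smul_neg]

variable (act) in
theorem IsEquivariantFun.zero : IsEquivariantFun act (0 : Y → Ω) := fun σ y => by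
  simp only [Pi.zero_apply, smul_zero]

variable (act) in
theorem IsEquivariantFun.one : IsEquivariantFun act (1 : Y → Ω) := fun σ y => by
  simp only [Pi.one_apply, smul_one]

/-- applying `σ` to the coefficients of a linear relation between equivariant functions gives a
linear relation. -/
theorem sum_smul_coeff_eq_zero (hact : ∀ σ, Function.Surjective (act σ))
    {ι : Type*} {f : ι → Y → Ω} (hf : ∀ i, IsEquivariantFun act (f i))
    (s : Finset ι) (c : ι → Ω) (hc : ∑ i ∈ s, c i • f i = 0) (σ : Γ) :
    ∑ i ∈ s, (σ • c i) • f i = 0 := by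
  funext y
  obtain ⟨y', rfl⟩ := hact σ y
  have h1 : ∑ i ∈ s, c i * f i y' = 0 := by
    have := congrFun hc y'
    simpa [Finset.sum_apply] using this
  have h2 : σ • (∑ i ∈ s, c i * f i y') = 0 := by rw [h1, smul_zero]
  rw [Finset.smul_sum] at h2
  simp only [Finset.sum_apply, Pi.smul_apply, smul_eq_mul, Pi.zero_apply]
  rw [← h2]
  refine Finset.sum_congr rfl fun i _ => ?_
  rw [smul_mul', ← hf i σ y']

/-- **Artin's lemma for equivariant functions**: if `k` is the fixed field of `Γ` acting on `Ω`,
then `k`-linearly independent `Γ`-equivariant functions `Y → Ω` are `Ω`-linearly independent. -/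
theorem linearIndependent_of_equivariant (hact : ∀ σ, Function.Surjective (act σ))
    (hfix : ∀ x : Ω, (∀ σ : Γ, σ • x = x) → x ∈ Set.range (algebraMap k Ω))
    {ι : Type*} {f : ι → Y → Ω} (hf : ∀ i, IsEquivariantFun act (f i))
    (hk : LinearIndependent k f) : LinearIndependent Ω f := by
  classical
  rw [linearIndependent_iff']
  intro s
  induction s using Finset.strongInduction with
  | H s ih =>
    intro c hc i0 hi0
    by_contra hne
    -- normalise the coefficient at `i0` to `1`
    set d : ι → Ω := fun i => (c i0)⁻¹ * c i with hd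
    have hd0 : d i0 = 1 := inv_mul_cancel₀ hne
    have hdsum : ∑ i ∈ s, d i • f i = 0 := by
      have : ∑ i ∈ s, d i • f i = (c i0)⁻¹ • ∑ i ∈ s, c i • f i := by
        rw [Finset.smul_sum]
        exact Finset.sum_congr rfl fun i _ => by rw [hd, smul_smul]
      rw [this, hc, smul_zero]
    -- all the `d i` are fixed by `Γ`
    have hfixd : ∀ i ∈ s, ∀ σ : Γ, σ • d i = d i := by
      intro i hi σ
      have h1 := sum_smul_coeff_eq_zero hact hf s d hdsum σ
      have h2 : ∑ i ∈ s, (σ • d i - d i) • f i = 0 := by
        simp only [sub_smul, Finset.sum_sub_distrib, h1, hdsum, sub_zero]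
      have h3 : ∑ i ∈ s.erase i0, (σ • d i - d i) • f i = 0 := by
        rw [← Finset.add_sum_erase s _ hi0] at h2
        simpa [hd0] using h2
      by_cases hii : i = i0
      · rw [hii, hd0, smul_one]
      · have := ih (s.erase i0) (Finset.erase_ssubset hi0) (fun i => σ • d i - d i) h3 i
          (Finset.mem_erase.2 ⟨hii, hi⟩)
        exact sub_eq_zero.1 this
    -- hence they come from `k`
    choose! a ha using fun i (hi : i ∈ s) => hfix (d i) (hfixd i hi)
    have hksum : ∑ i ∈ s, a i • f i = 0 := by
      rw [← hdsum]
      refine Finset.sum_congr rfl fun i hi => ?_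
      rw [← ha i hi, algebraMap_smul]
    have := linearIndependent_iff'.1 hk s a hksum i0 hi0
    have h1 : d i0 = 0 := by rw [← ha i0 hi0, this, map_zero]
    rw [hd0] at h1
    exact one_ne_zero h1

end Artin

/-! ### Separating subalgebras of `Y → Ω` -/

section Separates

variable {Ω : Type*} [Field Ω] {Y : Type*} [Finite Y]

/-- an `Ω`-subalgebra of `Y → Ω` (`Y` finite) separating points contains the indicator functions. -/
theorem single_mem_of_separates (A : Subalgebra Ω (Y → Ω))
    (hsep : ∀ y y' : Y, y ≠ y' → ∃ f ∈ A, f y ≠ f y') (y : Y) [DecidableEq Y] :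
    (Pi.single y (1 : Ω) : Y → Ω) ∈ A := by
  classical
  haveI := Fintype.ofFinite Y
  choose! g hgA hg using hsep y
  -- `u y' = (g y' - g y' y') / (g y' y - g y' y')` is `1` at `y` and `0` at `y'`
  set u : Y → Y → Ω := fun y' => (g y' y - g y' y')⁻¹ • (g y' - algebraMap Ω (Y → Ω) (g y' y'))
    with hu
  have huA : ∀ y', y ≠ y' → u y' ∈ A := fun y' hy' =>
    A.smul_mem (A.sub_mem (hgA y' hy') (A.algebraMap_mem _)) _
  have hprod : (∏ y' ∈ Finset.univ.erase y, u y') ∈ A :=
    A.prod_mem fun y' hy' => huA y' (Finset.ne_of_mem_erase hy').symm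
  convert hprod using 1
  funext z
  rw [Finset.prod_apply]
  by_cases hz : z = y
  · subst hz
    rw [Pi.single_eq_same]
    symm
    refine Finset.prod_eq_one fun y' hy' => ?_
    have hne : z ≠ y' := (Finset.ne_of_mem_erase hy').symm
    have : g y' z - g y' y' ≠ 0 := sub_ne_zero.2 (hg y' hne)
    simp only [hu, Pi.smul_apply, Pi.sub_apply, Pi.algebraMap_apply, Algebra.algebraMap_self,
      RingHom.id_apply, smul_eq_mul]
    exact inv_mul_cancel₀ this
  · rw [Pi.single_eq_of_ne hz]
    symm
    refine Finset.prod_eq_zero (Finset.mem_erase.2 ⟨hz, Finset.mem_univ z⟩) ?_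
    simp only [hu, Pi.smul_apply, Pi.sub_apply, Pi.algebraMap_apply, Algebra.algebraMap_self,
      RingHom.id_apply, smul_eq_mul, sub_self, mul_zero]

/-- an `Ω`-subalgebra of `Y → Ω` (`Y` finite) separating points is everything. -/
theorem subalgebra_eq_top_of_separates (A : Subalgebra Ω (Y → Ω))
    (hsep : ∀ y y' : Y, y ≠ y' → ∃ f ∈ A, f y ≠ f y') : A = ⊤ := by
  classical
  haveI := Fintype.ofFinite Y
  refine eq_top_iff.2 fun f _ => ?_
  have hf : f = ∑ y, f y • (Pi.single y (1 : Ω) : Y → Ω) := by
    funext z
    simp [Finset.sum_apply, Pi.single_apply]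
  rw [hf]
  exact A.sum_mem fun y _ => A.smul_mem (single_mem_of_separates A hsep y) _

/-- the `Ω`-span of an `R`-subalgebra of `Y → Ω` separating points is everything. -/
theorem span_eq_top_of_separates {R : Type*} [CommRing R] [Algebra R Ω]
    (H : Subalgebra R (Y → Ω)) (hsep : ∀ y y' : Y, y ≠ y' → ∃ f ∈ H, f y ≠ f y') :
    Submodule.span Ω (H : Set (Y → Ω)) = ⊤ := by
  have h1 : (Algebra.adjoin Ω (H : Set (Y → Ω))).toSubmodule = Submodule.span Ω (H : Set (Y → Ω)) := by
    rw [Algebra.adjoin_eq_span]
    congr 1
    exact congrArg _ (Submonoid.closure_eq H.toSubmonoid)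
  rw [← h1, subalgebra_eq_top_of_separates (Algebra.adjoin Ω (H : Set (Y → Ω))) fun y y' hy => ?_]
  · rfl
  · obtain ⟨f, hf, hne⟩ := hsep y y' hy
    exact ⟨f, Algebra.subset_adjoin hf, hne⟩

end Separates

/-! ### Orders of equivariant functions -/

section EquivOrder

variable {Γ : Type*} [Monoid Γ] {R k Ω : Type*} [CommRing R] [Field k] [Field Ω]
  [Algebra R k] [IsFractionRing R k] [Algebra k Ω] [Algebra R Ω] [IsScalarTower R k Ω]
  [MulSemiringAction Γ Ω] {Y : Type*} {act : Γ → Y → Y}

/-- an `R`-linearly independent family of equivariant functions is `Ω`-linearly independent. -/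
theorem linearIndependent_of_equivariant_of_fractionRing
    (hact : ∀ σ, Function.Surjective (act σ))
    (hfix : ∀ x : Ω, (∀ σ : Γ, σ • x = x) → x ∈ Set.range (algebraMap k Ω))
    {ι : Type*} {f : ι → Y → Ω} (hf : ∀ i, IsEquivariantFun act (f i))
    (hR : LinearIndependent R f) : LinearIndependent Ω f :=
  linearIndependent_of_equivariant hact hfix hf ((LinearIndependent.iff_fractionRing R k).1 hR)

variable (H : Subalgebra R (Y → Ω))

/-- an `R`-linearly independent family in an order of equivariant functions is `Ω`-linearly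
independent. -/
theorem linearIndependent_coe_of_linearIndependent (hact : ∀ σ, Function.Surjective (act σ))
    (hfix : ∀ x : Ω, (∀ σ : Γ, σ • x = x) → x ∈ Set.range (algebraMap k Ω))
    (hH : ∀ f ∈ H, IsEquivariantFun act f) {ι : Type*} {b : ι → H} (hb : LinearIndependent R b) :
    LinearIndependent Ω (fun i => ((b i : H) : Y → Ω)) := by
  refine linearIndependent_of_equivariant_of_fractionRing (R := R) (k := k) hact hfix
    (fun i => hH _ (b i).2) ?_
  exact hb.map' H.toSubmodule.subtype (Submodule.ker_subtype _)

variable [Finite Y]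

/-- the `Ω`-span of an `R`-basis of an order separating points is everything. -/
theorem span_basis_eq_top (hsep : ∀ y y' : Y, y ≠ y' → ∃ f ∈ H, f y ≠ f y')
    {ι : Type*} (b : Module.Basis ι R H) :
    Submodule.span Ω (Set.range fun i => ((b i : H) : Y → Ω)) = ⊤ := by
  rw [← span_eq_top_of_separates H hsep]
  refine le_antisymm (Submodule.span_mono ?_) (Submodule.span_le.2 fun f hf => ?_)
  · rintro _ ⟨i, rfl⟩
    exact (b i).2
  · have h1 := b.linearCombination_repr ⟨f, hf⟩
    have h2 : f = ∑ i ∈ (b.repr ⟨f, hf⟩).support, (b.repr ⟨f, hf⟩ i) • ((b i : H) : Y → Ω) := by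
      have := congrArg (fun x : H => (x : Y → Ω)) h1
      simp only [Finsupp.linearCombination_apply, Finsupp.sum] at this
      refine this.symm.trans ?_
      simp
    rw [h2]
    refine Submodule.sum_mem _ fun i _ => ?_
    rw [← algebraMap_smul Ω (b.repr ⟨f, hf⟩ i) ((b i : H) : Y → Ω)]
    exact Submodule.smul_mem _ _ (Submodule.subset_span ⟨i, rfl⟩)

/-- an `R`-basis of an order of equivariant functions separating points is an `Ω`-basis of the space
of all functions. -/
def basisFun (hact : ∀ σ, Function.Surjective (act σ)) (hfix : ∀ x : Ω, (∀ σ : Γ, σ • x = x) → x ∈ Set.range (algebraMap k Ω))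
    (hH : ∀ f ∈ H, IsEquivariantFun act f) (hsep : ∀ y y' : Y, y ≠ y' → ∃ f ∈ H, f y ≠ f y')
    {ι : Type*} (b : Module.Basis ι R H) : Module.Basis ι Ω (Y → Ω) :=
  Module.Basis.mk
    (linearIndependent_coe_of_linearIndependent (k := k) H hact hfix hH b.linearIndependent)
    (span_basis_eq_top H hsep b).ge

theorem basisFun_apply (hact : ∀ σ, Function.Surjective (act σ)) (hfix : ∀ x : Ω, (∀ σ : Γ, σ • x = x) → x ∈ Set.range (algebraMap k Ω))
    (hH : ∀ f ∈ H, IsEquivariantFun act f) (hsep : ∀ y y' : Y, y ≠ y' → ∃ f ∈ H, f y ≠ f y')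
    {ι : Type*} (b : Module.Basis ι R H) (i : ι) :
    basisFun (k := k) H hact hfix hH hsep b i = ((b i : H) : Y → Ω) := by
  rw [basisFun, Module.Basis.mk_apply]

/-- the rank of an order of equivariant functions separating points is `|Y|`. -/
theorem card_eq_of_basis (hact : ∀ σ, Function.Surjective (act σ)) (hfix : ∀ x : Ω, (∀ σ : Γ, σ • x = x) → x ∈ Set.range (algebraMap k Ω))
    (hH : ∀ f ∈ H, IsEquivariantFun act f) (hsep : ∀ y y' : Y, y ≠ y' → ∃ f ∈ H, f y ≠ f y')
    {ι : Type*} (b : Module.Basis ι R H) : Nat.card ι = Nat.card Y := by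
  haveI := Fintype.ofFinite Y
  have h1 := Module.finrank_eq_nat_card_basis (basisFun (k := k) H hact hfix hH hsep b)
  rw [← h1, Module.finrank_fintype_fun_eq_card, Nat.card_eq_fintype_card]

omit [Finite Y] in
/-- the evaluation matrix of a basis of an order of equivariant functions (indexed by a type
equivalent to `Y`) is invertible. -/
theorem det_ne_zero_of_basis (hact : ∀ σ, Function.Surjective (act σ))
    (hfix : ∀ x : Ω, (∀ σ : Γ, σ • x = x) → x ∈ Set.range (algebraMap k Ω))
    (hH : ∀ f ∈ H, IsEquivariantFun act f)
    {ι : Type*} [Fintype ι] [DecidableEq ι] (b : Module.Basis ι R H) (e : ι ≃ Y) :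
    (Matrix.of fun i j => ((b i : H) : Y → Ω) (e j)).det ≠ 0 := by
  have hli :=
    linearIndependent_coe_of_linearIndependent (k := k) H hact hfix hH b.linearIndependent
  have hrow : LinearIndependent Ω (Matrix.of fun i j => ((b i : H) : Y → Ω) (e j)).row := by
    have := hli.map' (LinearEquiv.funCongrLeft Ω Ω e).toLinearMap (LinearEquiv.ker _)
    exact this
  have hu := Matrix.linearIndependent_rows_iff_isUnit.1 hrow
  exact ((Matrix.isUnit_iff_isUnit_det _).1 hu).ne_zero

/-- existence of a basis with invertible evaluation matrix, over a PID. -/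
theorem exists_basis_det_ne_zero [IsDomain R] [IsPrincipalIdealRing R] [Module.Finite R H]
    (hact : ∀ σ, Function.Surjective (act σ))
    (hfix : ∀ x : Ω, (∀ σ : Γ, σ • x = x) → x ∈ Set.range (algebraMap k Ω))
    (hH : ∀ f ∈ H, IsEquivariantFun act f) (hsep : ∀ y y' : Y, y ≠ y' → ∃ f ∈ H, f y ≠ f y') :
    ∃ b : Module.Basis (Fin (Nat.card Y)) R H, ∀ e : Fin (Nat.card Y) ≃ Y,
      (Matrix.of fun i j => ((b i : H) : Y → Ω) (e j)).det ≠ 0 := by
  have hinj : Function.Injective (algebraMap R Ω) := by
    rw [IsScalarTower.algebraMap_eq R k Ω]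
    exact (algebraMap k Ω).injective.comp (IsFractionRing.injective R k)
  haveI : Module.IsTorsionFree R Ω := Module.isTorsionFree_iff_algebraMap_injective.2 hinj
  obtain ⟨n, b⟩ := Module.basisOfFiniteTypeTorsionFree' (R := R) (M := H)
  have hn : n = Nat.card Y := by
    have := card_eq_of_basis (k := k) H hact hfix hH hsep b
    simpa using this
  subst hn
  exact ⟨b, fun e => det_ne_zero_of_basis (k := k) H hact hfix hH b e⟩

/-- every equivariant function lies in the `k`-span of an order of equivariant functions
separating points (`k`-rationally, the order is the full algebra of equivariant functions). -/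
theorem equivariant_mem_span (hact : ∀ σ, Function.Surjective (act σ))
    (hfix : ∀ x : Ω, (∀ σ : Γ, σ • x = x) → x ∈ Set.range (algebraMap k Ω))
    (hk : ∀ (σ : Γ) (a : k), σ • algebraMap k Ω a = algebraMap k Ω a)
    (hH : ∀ f ∈ H, IsEquivariantFun act f) (hsep : ∀ y y' : Y, y ≠ y' → ∃ f ∈ H, f y ≠ f y')
    {g : Y → Ω} (hg : IsEquivariantFun act g) :
    g ∈ Submodule.span k (H : Set (Y → Ω)) := by
  classical
  set V : Submodule k (Y → Ω) := Submodule.span k (H : Set (Y → Ω)) with hV
  -- elements of `V` are equivariant
  have hVeq : ∀ f ∈ V, IsEquivariantFun act f := by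
    intro f hf
    induction hf using Submodule.span_induction with
    | mem f hf => exact hH f hf
    | zero => exact IsEquivariantFun.zero act
    | add f g _ _ hf hg => exact hf.add hg
    | smul a f _ hf =>
      intro σ y
      rw [Pi.smul_apply, Pi.smul_apply, hf σ y, Algebra.smul_def, Algebra.smul_def, smul_mul', hk]
  by_contra hgV
  let v := Module.Basis.ofVectorSpace k V
  set w : Module.Basis.ofVectorSpaceIndex k V → Y → Ω := fun j => ((v j : V) : Y → Ω) with hw
  have hwli : LinearIndependent k w := v.linearIndependent.map' V.subtype (Submodule.ker_subtype _)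
  have hwspan : Submodule.span k (Set.range w) = V := by
    have h1 : Set.range w = V.subtype '' Set.range v := by
      rw [← Set.range_comp]; rfl
    rw [h1, ← Submodule.map_span, v.span_eq, Submodule.map_top, Submodule.range_subtype]
  have hext : LinearIndependent k (fun o => Option.casesOn' o g w) :=
    hwli.option (by rw [hwspan]; exact hgV)
  have hextΩ : LinearIndependent Ω (fun o => Option.casesOn' o g w) := by
    refine linearIndependent_of_equivariant hact hfix (fun o => ?_) hext
    cases o with
    | none => exact hg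
    | some j => exact hVeq _ (v j).2
  have hnot := (linearIndependent_option'.1 hextΩ).2
  apply hnot
  have htop : Submodule.span Ω (Set.range w) = ⊤ := by
    rw [eq_top_iff, ← span_eq_top_of_separates H hsep]
    refine Submodule.span_le.2 fun f hf => ?_
    have h1 : f ∈ V := Submodule.subset_span hf
    rw [← hwspan] at h1
    exact Submodule.span_le_restrictScalars k Ω (Set.range w) h1
  rw [htop]
  exact Submodule.mem_top

/-- the evaluation map `H ⊗[R] H → (Y × Y → Ω)`, `f ⊗ g ↦ ((y, y') ↦ f y * g y')`. -/
def tensorEval : H ⊗[R] H →ₗ[R] (Y × Y → Ω) :=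
  TensorProduct.lift
    (LinearMap.mk₂ R (fun (f g : H) (p : Y × Y) => (f : Y → Ω) p.1 * (g : Y → Ω) p.2)
      (fun f f' g => by funext p; simp [add_mul])
      (fun r f g => by funext p; simp)
      (fun f g g' => by funext p; simp [mul_add])
      (fun r f g => by funext p; simp))

@[simp] theorem tensorEval_tmul (f g : H) (p : Y × Y) :
    tensorEval H (f ⊗ₜ[R] g) p = (f : Y → Ω) p.1 * (g : Y → Ω) p.2 := rfl

/-- products of two `Ω`-linearly independent families of functions are `Ω`-linearly independent
functions on the product. -/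
theorem linearIndependent_mul_of_linearIndependent {Z ι κ : Type*} [Finite ι] [Finite κ]
    {u : ι → Y → Ω} {u' : κ → Z → Ω}
    (hu : LinearIndependent Ω u) (hu' : LinearIndependent Ω u') :
    LinearIndependent Ω (fun (q : ι × κ) (p : Y × Z) => u q.1 p.1 * u' q.2 p.2) := by
  classical
  haveI := Fintype.ofFinite ι
  haveI := Fintype.ofFinite κ
  rw [Fintype.linearIndependent_iff]
  intro c hc
  rw [Fintype.linearIndependent_iff] at hu hu'
  have key : ∀ i, ∀ z : Z, ∑ j, c (i, j) * u' j z = 0 := by
    intro i z
    refine hu (fun i => ∑ j, c (i, j) * u' j z) ?_ i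
    funext y
    have := congrFun hc (y, z)
    simp only [Finset.sum_apply, Pi.smul_apply, smul_eq_mul, Pi.zero_apply] at this ⊢
    rw [← this, Fintype.sum_prod_type]
    refine Finset.sum_congr rfl fun i _ => ?_
    rw [Finset.sum_mul]
    refine Finset.sum_congr rfl fun j _ => ?_
    ring
  rintro ⟨i, j⟩
  refine hu' (fun j => c (i, j)) ?_ j
  funext z
  simpa [Finset.sum_apply] using key i z

/-- `H ⊗[R] H → (Y × Y → Ω)` is injective, for a free order of equivariant functions. -/
theorem tensorEval_injective (hact : ∀ σ, Function.Surjective (act σ))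
    (hfix : ∀ x : Ω, (∀ σ : Γ, σ • x = x) → x ∈ Set.range (algebraMap k Ω))
    (hH : ∀ f ∈ H, IsEquivariantFun act f) [Module.Free R H] [Module.Finite R H] :
    Function.Injective (tensorEval H) := by
  classical
  rcases subsingleton_or_nontrivial R with hR | hR
  · haveI : Subsingleton (H ⊗[R] H) := Module.subsingleton R _
    exact Function.injective_of_subsingleton _
  let b := Module.Free.chooseBasis R H
  haveI : Finite (Module.Free.ChooseBasisIndex R H) := Module.Finite.finite_basis b
  have hli := linearIndependent_coe_of_linearIndependent (k := k) H hact hfix hH b.linearIndependent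
  have hli2 := linearIndependent_mul_of_linearIndependent hli hli
  have hinj : Function.Injective fun r : R => r • (1 : Ω) := by
    have : (fun r : R => r • (1 : Ω)) = algebraMap R Ω := by
      funext r; rw [Algebra.smul_def, mul_one]
    rw [this, IsScalarTower.algebraMap_eq R k Ω]
    exact (algebraMap k Ω).injective.comp (IsFractionRing.injective R k)
  have hliR : LinearIndependent R (fun (q : _ × _) (p : Y × Y) =>
      ((b q.1 : H) : Y → Ω) p.1 * ((b q.2 : H) : Y → Ω) p.2) := hli2.restrict_scalars hinj
  let B := b.tensorProduct b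
  have hcomp : (fun (q : _ × _) (p : Y × Y) =>
      ((b q.1 : H) : Y → Ω) p.1 * ((b q.2 : H) : Y → Ω) p.2) = tensorEval H ∘ B := by
    funext q p
    simp only [B, Function.comp_apply, Module.Basis.tensorProduct_apply', tensorEval_tmul]
  rw [hcomp] at hliR
  intro x x' hxx
  have h1 : ∀ z : H ⊗[R] H,
      Finsupp.linearCombination R (tensorEval H ∘ B) (B.repr z) = tensorEval H z := fun z => by
    rw [← Finsupp.apply_linearCombination, B.linearCombination_repr]
  have h2 : B.repr x = B.repr x' := hliR (by rw [h1, h1, hxx])
  exact B.repr.injective h2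

end EquivOrder

/-! ### Convenience: the hypotheses `hact`, `hfix`, `hk` in the standard situations -/

section Convenience

/-- a function `act : Γ → Y → Y` satisfying the action axioms of a group is surjective in the
second variable. -/
theorem surjective_act {Γ Y : Type*} [Group Γ] (act : Γ → Y → Y) (h1 : ∀ x, act 1 x = x)
    (hmul : ∀ σ τ x, act (σ * τ) x = act σ (act τ x)) (σ : Γ) : Function.Surjective (act σ) :=
  fun y => ⟨act σ⁻¹ y, by rw [← hmul, mul_inv_cancel, h1]⟩

/-- the fixed field of the full automorphism group of a Galois extension is the base field. -/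
theorem fixed_mem_range_of_isGalois {k K : Type*} [Field k] [Field K] [Algebra k K] [IsGalois k K]
    (x : K) (hx : ∀ σ : K ≃ₐ[k] K, σ • x = x) : x ∈ Set.range (algebraMap k K) :=
  (InfiniteGalois.mem_range_algebraMap_iff_fixed x).2 hx

/-- the base field is fixed by the automorphism group. -/
theorem smul_algebraMap_of_algEquiv {k K : Type*} [Field k] [Field K] [Algebra k K]
    (σ : K ≃ₐ[k] K) (a : k) : σ • algebraMap k K a = algebraMap k K a :=
  σ.commutes a

end Convenience

end Fermat.Agent.S19x.EquivFunDescent
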