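import Mathlib

/-!
# Hopf orders from function-level data (matrix form)

`R` a commutative ring mapping injectively to a field `Ω`, `T` a finite abelian group, `A` a
commutative `R`-algebra with an `R`-algebra map `ι : A →ₐ[R] (T → Ω)` such that `A` is `R`-free on
a basis `b` whose image under `ι` is an `Ω`-basis of `T → Ω`.  If the image of `ι` is closed under
`f ↦ ((s,t) ↦ f (s+t))` (inside the span of products), `f ↦ f 0` (values in `R`) and
`f ↦ (t ↦ f (-t))`, then `A` is a commutative cocommutative Hopf algebra over `R` whose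
`Ω`-points, with the convolution product, are `T`.
-/

set_option autoImplicit false
set_option linter.style.haveILetI false

noncomputable section

namespace Fermat.Agent.S19x.HopfOrder

open scoped TensorProduct
open TensorProduct

universe u v

variable {R : Type u} [CommRing R] {Ω : Type v} [Field Ω] [Algebra R Ω]

/-- pull back functions along a map, as an algebra hom. -/
def pullAlg {S S' : Type*} (φ : S → S') : (S' → Ω) →ₐ[R] (S → Ω) where
  toFun f := f ∘ φ
  map_one' := rfl
  map_mul' _ _ := rfl
  map_zero' := rfl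
  map_add' _ _ := rfl
  commutes' _ := rfl

@[simp] theorem pullAlg_apply {S S' : Type*} (φ : S → S') (f : S' → Ω) (s : S) :
    (pullAlg (R := R) φ f) s = f (φ s) := rfl

section ExtProd

variable {A B : Type*} [CommRing A] [Algebra R A] [CommRing B] [Algebra R B] {S S' : Type*}

/-- external product of two algebra homs into function algebras. -/
def extProd (φ : A →ₐ[R] (S → Ω)) (ψ : B →ₐ[R] (S' → Ω)) : A ⊗[R] B →ₐ[R] (S × S' → Ω) :=
  Algebra.TensorProduct.lift ((pullAlg Prod.fst).comp φ) ((pullAlg Prod.snd).comp ψ)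
    (fun _ _ => Commute.all _ _)

@[simp] theorem extProd_tmul (φ : A →ₐ[R] (S → Ω)) (ψ : B →ₐ[R] (S' → Ω)) (a : A) (b : B)
    (st : S × S') : extProd φ ψ (a ⊗ₜ[R] b) st = φ a st.1 * ψ b st.2 := by
  simp [extProd]

/-- an `R`-basis of `A` whose image is `Ω`-linearly independent. -/
structure IndepBasis (φ : A →ₐ[R] (S → Ω)) (κ : Type*) where
  b : Module.Basis κ R A
  li : LinearIndependent Ω (fun i => φ (b i))

theorem IndepBasis.injective {φ : A →ₐ[R] (S → Ω)} {κ : Type*} [Fintype κ]
    (IB : IndepBasis φ κ) (hR : Function.Injective (algebraMap R Ω)) : Function.Injective φ := by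
  rw [injective_iff_map_eq_zero]
  intro a ha
  have h1 : a = ∑ i, IB.b.repr a i • IB.b i := (IB.b.sum_repr a).symm
  have h2 : ∑ i, (algebraMap R Ω (IB.b.repr a i)) • φ (IB.b i) = 0 := by
    rw [← ha]
    conv_rhs => rw [h1, map_sum]
    refine Finset.sum_congr rfl fun i _ => ?_
    rw [map_smul, algebraMap_smul]
  have h3 := Fintype.linearIndependent_iff.1 IB.li _ h2
  rw [h1]
  refine Finset.sum_eq_zero fun i _ => ?_
  have : IB.b.repr a i = 0 := hR (by rw [h3 i, map_zero])
  rw [this, zero_smul]

/-- product of independent bases. -/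
def IndepBasis.prod {φ : A →ₐ[R] (S → Ω)} {ψ : B →ₐ[R] (S' → Ω)} {κ κ' : Type*} [Fintype κ]
    [Fintype κ'] (IB : IndepBasis φ κ) (IB' : IndepBasis ψ κ') :
    IndepBasis (extProd φ ψ) (κ × κ') where
  b := IB.b.tensorProduct IB'.b
  li := by
    rw [Fintype.linearIndependent_iff]
    intro g hg ij
    obtain ⟨i, j⟩ := ij
    have key : ∀ t : S', ∀ i, ∑ j, g (i, j) * ψ (IB'.b j) t = 0 := by
      intro t
      have h1 : ∑ i, (∑ j, g (i, j) * ψ (IB'.b j) t) • φ (IB.b i) = 0 := by
        funext s
        have := congrFun hg (s, t)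
        simp only [Pi.zero_apply] at this ⊢
        rw [← this, Fintype.sum_prod_type]
        simp only [Finset.sum_apply, Pi.smul_apply, smul_eq_mul, Finset.sum_mul]
        refine Finset.sum_congr rfl fun i _ => Finset.sum_congr rfl fun j _ => ?_
        rw [Module.Basis.tensorProduct_apply, extProd_tmul]
        ring
      exact Fintype.linearIndependent_iff.1 IB.li _ h1
    have h2 : ∑ j, g (i, j) • ψ (IB'.b j) = 0 := by
      funext t
      simpa using key t i
    exact Fintype.linearIndependent_iff.1 IB'.li _ h2 j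

end ExtProd

section Main

variable {T : Type*} [AddCommGroup T] {A : Type*} [CommRing A] [Algebra R A]

/-- the function-level data of a Hopf order. -/
structure Datum (ι : A →ₐ[R] (T → Ω)) (κ : Type*) [Fintype κ] where
  IB : IndepBasis ι κ
  hR : Function.Injective (algebraMap R Ω)
  hΔ : ∀ a, pullAlg (R := R) (fun st : T × T => st.1 + st.2) (ι a) ∈ (extProd ι ι).range
  hε : ∀ a, ∃ r : R, algebraMap R Ω r = ι a 0
  hS : ∀ a, pullAlg (R := R) (fun t : T => -t) (ι a) ∈ ι.range

namespace Datum

variable {ι : A →ₐ[R] (T → Ω)} {κ : Type*} [Fintype κ] (D : Datum ι κ)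

include D in

theorem inj : Function.Injective ι := D.IB.injective D.hR

include D in
theorem inj₂ : Function.Injective (extProd ι ι) := (D.IB.prod D.IB).injective D.hR

include D in
theorem inj₃ : Function.Injective (extProd ι (extProd ι ι)) :=
  (D.IB.prod (D.IB.prod D.IB)).injective D.hR

/-- the comultiplication. -/
def comulAlg : A →ₐ[R] A ⊗[R] A :=
  ((AlgEquiv.ofInjective (extProd ι ι) D.inj₂).symm : (extProd ι ι).range →ₐ[R] A ⊗[R] A).comp
    (((pullAlg (fun st : T × T => st.1 + st.2)).comp ι).codRestrict (extProd ι ι).range D.hΔ)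

theorem extProd_comulAlg (a : A) (s t : T) : extProd ι ι (D.comulAlg a) (s, t) = ι a (s + t) := by
  have h : extProd ι ι (D.comulAlg a) = pullAlg (R := R) (fun st : T × T => st.1 + st.2) (ι a) := by
    unfold comulAlg
    rw [AlgHom.comp_apply]
    set y := (((pullAlg (fun st : T × T => st.1 + st.2)).comp ι).codRestrict
      (extProd ι ι).range D.hΔ) a with hy
    have h1 := (AlgEquiv.ofInjective (extProd ι ι) D.inj₂).apply_symm_apply y
    have h2 := congrArg Subtype.val h1
    rw [AlgEquiv.ofInjective_apply] at h2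
    exact h2
  rw [h]
  rfl

/-- the counit. -/
def counitAlg : A →ₐ[R] R :=
  ((AlgEquiv.ofInjective (Algebra.ofId R Ω) D.hR).symm : (Algebra.ofId R Ω).range →ₐ[R] R).comp
    (((Pi.evalAlgHom R (fun _ : T => Ω) 0).comp ι).codRestrict (Algebra.ofId R Ω).range
      (fun a => by
        obtain ⟨r, hr⟩ := D.hε a
        exact ⟨r, hr⟩))

theorem algebraMap_counitAlg (a : A) : algebraMap R Ω (D.counitAlg a) = ι a 0 := by
  unfold counitAlg
  rw [AlgHom.comp_apply]
  set y := (((Pi.evalAlgHom R (fun _ : T => Ω) 0).comp ι).codRestrict (Algebra.ofId R Ω).range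
      (fun a => by
        obtain ⟨r, hr⟩ := D.hε a
        exact ⟨r, hr⟩)) a with hy
  have h1 := (AlgEquiv.ofInjective (Algebra.ofId R Ω) D.hR).apply_symm_apply y
  have h2 := congrArg Subtype.val h1
  rw [AlgEquiv.ofInjective_apply] at h2
  exact h2

/-- the antipode. -/
def antipodeAlg : A →ₐ[R] A :=
  ((AlgEquiv.ofInjective ι D.inj).symm : ι.range →ₐ[R] A).comp
    (((pullAlg (fun t : T => -t)).comp ι).codRestrict ι.range D.hS)

theorem ι_antipodeAlg (a : A) (t : T) : ι (D.antipodeAlg a) t = ι a (-t) := by
  have h : ι (D.antipodeAlg a) = pullAlg (R := R) (fun t : T => -t) (ι a) := by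
    unfold antipodeAlg
    rw [AlgHom.comp_apply]
    set y := (((pullAlg (fun t : T => -t)).comp ι).codRestrict ι.range D.hS) a with hy
    have h1 := (AlgEquiv.ofInjective ι D.inj).apply_symm_apply y
    have h2 := congrArg Subtype.val h1
    rw [AlgEquiv.ofInjective_apply] at h2
    exact h2
  rw [h]
  rfl

/-! ### auxiliary evaluation lemmas -/

omit [AddCommGroup T] in
theorem aux_assoc (y : A ⊗[R] A) (b : A) (r s t : T) :
    extProd ι (extProd ι ι) (Algebra.TensorProduct.assoc R R R A A A (y ⊗ₜ[R] b)) (r, (s, t)) =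
      extProd ι ι y (r, s) * ι b t := by
  induction y using TensorProduct.induction_on with
  | zero => simp
  | tmul a a' =>
    rw [Algebra.TensorProduct.assoc_tmul, extProd_tmul, extProd_tmul, extProd_tmul]
    simp only
    ring
  | add y y' hy hy' =>
    rw [TensorProduct.add_tmul, map_add, map_add, Pi.add_apply, hy, hy', map_add, Pi.add_apply]
    ring

theorem aux_left (x : A ⊗[R] A) (r s t : T) :
    extProd ι (extProd ι ι) (Algebra.TensorProduct.assoc R R R A A A
      (Algebra.TensorProduct.map D.comulAlg (AlgHom.id R A) x)) (r, (s, t)) =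
      extProd ι ι x (r + s, t) := by
  induction x using TensorProduct.induction_on with
  | zero => simp
  | tmul a b =>
    rw [Algebra.TensorProduct.map_tmul, aux_assoc, D.extProd_comulAlg, extProd_tmul]
    rfl
  | add y y' hy hy' =>
    rw [map_add, map_add, map_add, Pi.add_apply, hy, hy', map_add, Pi.add_apply]

theorem aux_right (x : A ⊗[R] A) (r s t : T) :
    extProd ι (extProd ι ι) (Algebra.TensorProduct.map (AlgHom.id R A) D.comulAlg x) (r, (s, t)) =
      extProd ι ι x (r, s + t) := by
  induction x using TensorProduct.induction_on with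
  | zero => simp
  | tmul a b =>
    rw [Algebra.TensorProduct.map_tmul, extProd_tmul, extProd_tmul]
    simp only [AlgHom.coe_id, id_eq]
    rw [D.extProd_comulAlg]
  | add y y' hy hy' =>
    rw [map_add, map_add, Pi.add_apply, hy, hy', map_add, Pi.add_apply]

theorem aux_lid (x : A ⊗[R] A) (t : T) :
    ι (Algebra.TensorProduct.lid R A
      (Algebra.TensorProduct.map D.counitAlg (AlgHom.id R A) x)) t = extProd ι ι x (0, t) := by
  induction x using TensorProduct.induction_on with
  | zero => simp
  | tmul a b =>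
    rw [Algebra.TensorProduct.map_tmul, Algebra.TensorProduct.lid_tmul, extProd_tmul, map_smul,
      Pi.smul_apply, Algebra.smul_def, D.algebraMap_counitAlg]
    rfl
  | add y y' hy hy' =>
    rw [map_add, map_add, map_add, Pi.add_apply, hy, hy', map_add, Pi.add_apply]

theorem aux_rid (x : A ⊗[R] A) (t : T) :
    ι (Algebra.TensorProduct.rid R R A
      (Algebra.TensorProduct.map (AlgHom.id R A) D.counitAlg x)) t = extProd ι ι x (t, 0) := by
  induction x using TensorProduct.induction_on with
  | zero => simp
  | tmul a b =>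
    rw [Algebra.TensorProduct.map_tmul, Algebra.TensorProduct.rid_tmul, extProd_tmul, map_smul,
      Pi.smul_apply, Algebra.smul_def, D.algebraMap_counitAlg]
    simp only [AlgHom.coe_id, id_eq]
    ring
  | add y y' hy hy' =>
    rw [map_add, map_add, map_add, Pi.add_apply, hy, hy', map_add, Pi.add_apply]

/-- the bialgebra structure. -/
@[reducible] def bialgebra : Bialgebra R A :=
  Bialgebra.ofAlgHom D.comulAlg D.counitAlg
    (by
      apply AlgHom.ext
      intro a
      apply D.inj₃
      funext ⟨r, s, t⟩
      simp only [AlgHom.comp_apply]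
      refine (D.aux_left _ r s t).trans ?_
      rw [D.aux_right, D.extProd_comulAlg, D.extProd_comulAlg, add_assoc])
    (by
      apply AlgHom.ext
      intro a
      apply (Algebra.TensorProduct.lid R A).injective
      apply D.inj
      funext t
      simp only [AlgHom.comp_apply]
      refine (D.aux_lid _ t).trans ?_
      rw [D.extProd_comulAlg, zero_add]
      exact (congrArg (fun z => ι z t) ((Algebra.TensorProduct.lid R A).apply_symm_apply a)).symm)
    (by
      apply AlgHom.ext
      intro a
      apply (Algebra.TensorProduct.rid R R A).injective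
      apply D.inj
      funext t
      simp only [AlgHom.comp_apply]
      refine (D.aux_rid _ t).trans ?_
      rw [D.extProd_comulAlg, add_zero]
      exact (congrArg (fun z => ι z t) ((Algebra.TensorProduct.rid R R A).apply_symm_apply a)).symm)

theorem aux_anti_left (x : A ⊗[R] A) (t : T) :
    ι (Algebra.TensorProduct.lift D.antipodeAlg (AlgHom.id R A) (fun _ _ => Commute.all _ _) x) t =
      extProd ι ι x (-t, t) := by
  induction x using TensorProduct.induction_on with
  | zero => simp
  | tmul a b =>
    rw [Algebra.TensorProduct.lift_tmul, map_mul, Pi.mul_apply, D.ι_antipodeAlg, extProd_tmul]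
    rfl
  | add y y' hy hy' =>
    rw [map_add, map_add, Pi.add_apply, hy, hy', map_add, Pi.add_apply]

theorem aux_anti_right (x : A ⊗[R] A) (t : T) :
    ι (Algebra.TensorProduct.lift (AlgHom.id R A) D.antipodeAlg (fun _ _ => Commute.all _ _) x) t =
      extProd ι ι x (t, -t) := by
  induction x using TensorProduct.induction_on with
  | zero => simp
  | tmul a b =>
    rw [Algebra.TensorProduct.lift_tmul, map_mul, Pi.mul_apply, D.ι_antipodeAlg, extProd_tmul]
    rfl
  | add y y' hy hy' =>
    rw [map_add, map_add, Pi.add_apply, hy, hy', map_add, Pi.add_apply]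

omit [AddCommGroup T] in
theorem ι_algebraMap (r : R) (t : T) : ι (algebraMap R A r) t = algebraMap R Ω r := by
  rw [ι.commutes]
  rfl

/-- the Hopf algebra structure. -/
@[reducible] def hopf : HopfAlgebra R A :=
  letI := D.bialgebra
  HopfAlgebra.ofAlgHom D.antipodeAlg
    (by
      apply AlgHom.ext
      intro a
      apply D.inj
      funext t
      simp only [AlgHom.comp_apply]
      refine (D.aux_anti_left (D.comulAlg a) t).trans ?_
      rw [D.extProd_comulAlg, neg_add_cancel]
      refine Eq.trans ?_ (ι_algebraMap (D.counitAlg a) t).symm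
      exact (D.algebraMap_counitAlg a).symm)
    (by
      apply AlgHom.ext
      intro a
      apply D.inj
      funext t
      simp only [AlgHom.comp_apply]
      refine (D.aux_anti_right (D.comulAlg a) t).trans ?_
      rw [D.extProd_comulAlg, add_neg_cancel]
      refine Eq.trans ?_ (ι_algebraMap (D.counitAlg a) t).symm
      exact (D.algebraMap_counitAlg a).symm)

omit [AddCommGroup T] in
theorem aux_comm (x : A ⊗[R] A) (s t : T) :
    extProd ι ι (TensorProduct.comm R A A x) (s, t) = extProd ι ι x (t, s) := by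
  induction x using TensorProduct.induction_on with
  | zero => simp
  | tmul a b =>
    rw [TensorProduct.comm_tmul, extProd_tmul, extProd_tmul]
    simp only
    ring
  | add y y' hy hy' =>
    rw [map_add, map_add, Pi.add_apply, hy, hy', map_add, Pi.add_apply]

theorem isCocomm : letI := D.hopf; Coalgebra.IsCocomm R A := by
  letI := D.hopf
  constructor
  apply LinearMap.ext
  intro a
  apply D.inj₂
  funext ⟨s, t⟩
  refine (aux_comm (D.comulAlg a) s t).trans ?_
  rw [D.extProd_comulAlg, add_comm]
  exact (D.extProd_comulAlg a s t).symm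

end Datum

end Main

section Points

variable {T : Type*} [AddCommGroup T] [Finite T] {A : Type*} [CommRing A] [Algebra R A]

/-- evaluation at a point of `T`, as an `R`-algebra map `A → Ω`. -/
def evPt (ι : A →ₐ[R] (T → Ω)) (t : T) : A →ₐ[R] Ω :=
  (Pi.evalAlgHom R (fun _ : T => Ω) t).comp ι

omit [AddCommGroup T] [Finite T] in
@[simp] theorem evPt_apply (ι : A →ₐ[R] (T → Ω)) (t : T) (a : A) : evPt ι t a = ι a t := rfl

namespace Datum

variable {ι : A →ₐ[R] (T → Ω)} {κ : Type*} [Fintype κ] (D : Datum ι κ)

omit [AddCommGroup T] in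
theorem span_eq_top (IB : IndepBasis ι κ) (hcard : Fintype.card κ = Nat.card T) :
    Submodule.span Ω (Set.range fun i => ι (IB.b i)) = ⊤ := by
  classical
  haveI := Fintype.ofFinite T
  apply LinearIndependent.span_eq_top_of_card_eq_finrank' IB.li
  rw [hcard, Module.finrank_fintype_fun_eq_card, Nat.card_eq_fintype_card]

omit [AddCommGroup T] in
theorem evPt_injective (IB : IndepBasis ι κ) (hcard : Fintype.card κ = Nat.card T) :
    Function.Injective (evPt ι) := by
  classical
  intro s t hst
  have h1 : ∀ a, ι a s = ι a t := fun a => by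
    have := congrArg (fun φ : A →ₐ[R] Ω => φ a) hst
    simpa using this
  have h2 : ∀ f : T → Ω, f s = f t := by
    intro f
    have hf : f ∈ Submodule.span Ω (Set.range fun i => ι (IB.b i)) := by
      rw [span_eq_top IB hcard]; trivial
    induction hf using Submodule.span_induction with
    | mem x hx =>
      obtain ⟨i, rfl⟩ := hx
      exact h1 _
    | zero => rfl
    | add x y _ _ hx hy => rw [Pi.add_apply, Pi.add_apply, hx, hy]
    | smul c x _ hx => rw [Pi.smul_apply, Pi.smul_apply, hx]
  by_contra hne
  have := h2 (Pi.single s (1 : Ω))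
  rw [Pi.single_eq_same, Pi.single_eq_of_ne (Ne.symm hne)] at this
  exact one_ne_zero this

theorem evPt_surjective (IB : IndepBasis ι κ) (hcard : Fintype.card κ = Nat.card T) :
    Function.Surjective (evPt ι) := by
  classical
  haveI := Fintype.ofFinite T
  haveI : Nonempty κ := by
    rw [← Fintype.card_pos_iff, hcard]
    exact Nat.card_pos
  intro φ
  have hcard' : Fintype.card κ = Module.finrank Ω (T → Ω) := by
    rw [hcard, Module.finrank_fintype_fun_eq_card, Nat.card_eq_fintype_card]
  set B : Module.Basis κ Ω (T → Ω) := basisOfLinearIndependentOfCardEqFinrank IB.li hcard' with hB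
  have hBi : ∀ i, B i = ι (IB.b i) := fun i => by
    rw [hB, coe_basisOfLinearIndependentOfCardEqFinrank]
  set Φ : (T → Ω) →ₗ[Ω] Ω := B.constr Ω (fun i => φ (IB.b i)) with hΦ
  have hΦi : ∀ i, Φ (ι (IB.b i)) = φ (IB.b i) := fun i => by
    rw [← hBi, hΦ, Module.Basis.constr_basis]
  -- `Φ ∘ ι = φ`
  have c1 : ∀ a, Φ (ι a) = φ a := by
    intro a
    have h1 : a = ∑ i, IB.b.repr a i • IB.b i := (IB.b.sum_repr a).symm
    conv_lhs => rw [h1]
    conv_rhs => rw [h1]
    rw [map_sum, map_sum, map_sum]
    refine Finset.sum_congr rfl fun i _ => ?_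
    rw [map_smul ι, LinearMap.map_smul_of_tower Φ, hΦi, map_smul φ]
  -- multiplicativity
  have c2 : ∀ (a : A) (f : T → Ω), Φ (f * ι a) = Φ f * φ a := by
    intro a
    have h : Φ ∘ₗ LinearMap.mulRight Ω (ι a) = LinearMap.mulRight Ω (φ a) ∘ₗ Φ := by
      apply B.ext
      intro i
      rw [LinearMap.comp_apply, LinearMap.comp_apply, LinearMap.mulRight_apply,
        LinearMap.mulRight_apply, hBi, hΦi, ← map_mul, c1, map_mul]
    intro f
    have := LinearMap.congr_fun h f
    simpa using this
  have c3 : ∀ f g : T → Ω, Φ (f * g) = Φ f * Φ g := by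
    intro f
    have h : Φ ∘ₗ LinearMap.mulLeft Ω f = LinearMap.mulLeft Ω (Φ f) ∘ₗ Φ := by
      apply B.ext
      intro i
      rw [LinearMap.comp_apply, LinearMap.comp_apply, LinearMap.mulLeft_apply,
        LinearMap.mulLeft_apply, hBi, hΦi, c2]
    intro g
    have := LinearMap.congr_fun h g
    simpa using this
  have c4 : Φ 1 = 1 := by
    have := c1 1
    rwa [map_one ι, map_one φ] at this
  -- the idempotents
  have hsum : ∑ t : T, Φ (Pi.single t 1) = 1 := by
    have h1 : ∑ t : T, Pi.single t (1 : Ω) = (1 : T → Ω) := by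
      have := Finset.univ_sum_single (1 : T → Ω)
      simpa using this
    rw [← map_sum, h1, c4]
  obtain ⟨t0, ht0⟩ : ∃ t0 : T, Φ (Pi.single t0 1) ≠ 0 := by
    by_contra hcon
    push Not at hcon
    rw [Finset.sum_eq_zero (fun t _ => hcon t)] at hsum
    exact zero_ne_one hsum
  have hidem : Φ (Pi.single t0 1) * Φ (Pi.single t0 1) = Φ (Pi.single t0 1) := by
    rw [← c3]
    congr 1
    funext s
    by_cases hs : s = t0
    · subst hs; simp
    · simp [Pi.single_eq_of_ne hs]
  have hone : Φ (Pi.single t0 1) = 1 := by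
    have := mul_right_cancel₀ ht0 (hidem.trans (one_mul _).symm)
    exact this
  have hev : ∀ f : T → Ω, Φ f = f t0 := by
    intro f
    have h1 : f * Pi.single t0 1 = f t0 • Pi.single t0 (1 : Ω) := by
      funext s
      by_cases hs : s = t0
      · subst hs; simp
      · simp [Pi.single_eq_of_ne hs]
    calc Φ f = Φ f * Φ (Pi.single t0 1) := by rw [hone, mul_one]
      _ = Φ (f * Pi.single t0 1) := (c3 _ _).symm
      _ = f t0 := by rw [h1, map_smul, hone, smul_eq_mul, mul_one]
  refine ⟨t0, ?_⟩
  apply AlgHom.ext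
  intro a
  rw [evPt_apply, ← c1 a, hev]

/-- the points of the Hopf order are the elements of `T`. -/
def pointEquiv (hcard : Fintype.card κ = Nat.card T) : T ≃ WithConv (A →ₐ[R] Ω) :=
  Equiv.ofBijective (fun t => WithConv.toConv (evPt ι t))
    ⟨fun _ _ h => evPt_injective D.IB hcard (WithConv.toConv_injective h), fun f => by
      obtain ⟨t, ht⟩ := evPt_surjective D.IB hcard f.ofConv
      exact ⟨t, WithConv.ext ht⟩⟩

theorem pointEquiv_apply (hcard : Fintype.card κ = Nat.card T) (t : T) :
    D.pointEquiv hcard t = WithConv.toConv (evPt ι t) := rfl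

include D in
theorem exists_eq_toConv_evPt (hcard : Fintype.card κ = Nat.card T)
    (f : WithConv (A →ₐ[R] Ω)) : ∃ t : T, f = WithConv.toConv (evPt ι t) := by
  obtain ⟨t, ht⟩ := (D.pointEquiv hcard).surjective f
  exact ⟨t, ht.symm⟩

theorem pointEquiv_symm_toConv_evPt (hcard : Fintype.card κ = Nat.card T) (t : T) :
    (D.pointEquiv hcard).symm (WithConv.toConv (evPt ι t)) = t :=
  (D.pointEquiv hcard).symm_apply_apply t

omit [AddCommGroup T] [Finite T] in
theorem aux_pts (x : A ⊗[R] A) (s t : T) :
    Algebra.TensorProduct.lift (evPt ι s) (evPt ι t) (fun _ _ => Commute.all _ _) x =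
      extProd ι ι x (s, t) := by
  induction x using TensorProduct.induction_on with
  | zero => simp
  | tmul a b =>
    rw [Algebra.TensorProduct.lift_tmul, extProd_tmul]
    rfl
  | add y y' hy hy' =>
    rw [map_add, hy, hy', map_add, Pi.add_apply]

omit [Finite T] in
theorem toConv_evPt_mul (s t : T) :
    letI := D.hopf
    (WithConv.toConv (evPt ι s) * WithConv.toConv (evPt ι t) : WithConv (A →ₐ[R] Ω)) =
      WithConv.toConv (evPt ι (s + t)) := by
  letI := D.hopf
  apply WithConv.ext
  apply AlgHom.ext
  intro a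
  have h := AlgHom.convMul_apply (WithConv.toConv (evPt ι s)) (WithConv.toConv (evPt ι t)) a
  refine h.trans ?_
  refine (aux_pts (D.comulAlg a) s t).trans ?_
  rw [D.extProd_comulAlg]
  rfl

theorem pointEquiv_symm_mul (hcard : Fintype.card κ = Nat.card T) :
    letI := D.hopf
    ∀ f g : WithConv (A →ₐ[R] Ω), (D.pointEquiv hcard).symm (f * g) =
      (D.pointEquiv hcard).symm f + (D.pointEquiv hcard).symm g := by
  letI := D.hopf
  intro f g
  obtain ⟨s, rfl⟩ := D.exists_eq_toConv_evPt hcard f
  obtain ⟨t, rfl⟩ := D.exists_eq_toConv_evPt hcard g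
  have h := D.toConv_evPt_mul s t
  refine (congrArg (D.pointEquiv hcard).symm h).trans ?_
  exact (D.pointEquiv_symm_toConv_evPt hcard (s + t)).trans
    (congrArg₂ (· + ·) (D.pointEquiv_symm_toConv_evPt hcard s).symm
      (D.pointEquiv_symm_toConv_evPt hcard t).symm)

theorem pointEquiv_symm_equivariant (hcard : Fintype.card κ = Nat.card T) {G : Type*}
    (actΩ : G → Ω → Ω) (actT : G → T → T)
    (hequiv : ∀ (σ : G) (a : A) (t : T), ι a (actT σ t) = actΩ σ (ι a t))
    (σ : G) (f g : WithConv (A →ₐ[R] Ω)) (hfg : ∀ h : A, g h = actΩ σ (f h)) :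
    (D.pointEquiv hcard).symm g = actT σ ((D.pointEquiv hcard).symm f) := by
  obtain ⟨t, rfl⟩ := D.exists_eq_toConv_evPt hcard f
  have hg : g = WithConv.toConv (evPt ι (actT σ t)) := by
    apply WithConv.ext
    apply AlgHom.ext
    intro a
    exact (hfg a).trans (hequiv σ a t).symm
  rw [hg, D.pointEquiv_symm_toConv_evPt, D.pointEquiv_symm_toConv_evPt]

end Datum

/-- a copy of `A` carrying only its ring structure. -/
def Carrier (A : Type*) := A

instance : CommRing (Carrier A) := inferInstanceAs (CommRing A)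

/-- **Hopf orders from function-level data**, in the shape of the frozen statement S19. -/
theorem exists_hopfAlgebra {ι : A →ₐ[R] (T → Ω)} {κ : Type*} [Fintype κ] (D : Datum ι κ)
    (hcard : Fintype.card κ = Nat.card T) {G : Type*} (actΩ : G → Ω → Ω) (actT : G → T → T)
    (hequiv : ∀ (σ : G) (a : A) (t : T), ι a (actT σ t) = actΩ σ (ι a t)) :
    ∃ (_ : HopfAlgebra R (Carrier A)), Module.Finite R (Carrier A) ∧ Module.Flat R (Carrier A) ∧
      Coalgebra.IsCocomm R (Carrier A) ∧
      ∃ e : WithConv (Carrier A →ₐ[R] Ω) ≃ T,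
        (∀ f g, e (f * g) = e f + e g) ∧
        ∀ (σ : G) (f g : WithConv (Carrier A →ₐ[R] Ω)),
          (∀ h : Carrier A, g h = actΩ σ (f h)) → e g = actT σ (e f) := by
  refine ⟨(D.hopf : HopfAlgebra R A), ?_, ?_, ?_, ?_⟩
  · exact (Module.Finite.of_basis D.IB.b : Module.Finite R A)
  · haveI : Module.Free R A := Module.Free.of_basis D.IB.b
    exact (inferInstance : Module.Flat R A)
  · exact D.isCocomm
  · exact ⟨(D.pointEquiv hcard).symm, D.pointEquiv_symm_mul hcard,
      D.pointEquiv_symm_equivariant hcard actΩ actT hequiv⟩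

end Points

/-! ### The datum of a subalgebra of functions -/

section Subalgebra

variable {T : Type*} [AddCommGroup T]

theorem mem_range_extProd_of_mem_span {A B : Type*} [CommRing A] [Algebra R A] [CommRing B]
    [Algebra R B] {S S' : Type*} (φ : A →ₐ[R] (S → Ω)) (ψ : B →ₐ[R] (S' → Ω)) {F : S × S' → Ω}
    (h : F ∈ Submodule.span R
      {F : S × S' → Ω | ∃ a b, F = fun st => φ a st.1 * ψ b st.2}) :
    F ∈ (extProd φ ψ).range := by
  induction h using Submodule.span_induction with
  | mem x hx =>
    obtain ⟨a, b, rfl⟩ := hx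
    refine ⟨a ⊗ₜ[R] b, ?_⟩
    funext st
    exact extProd_tmul φ ψ a b st
  | zero => exact Subalgebra.zero_mem _
  | add x y _ _ hx hy => exact Subalgebra.add_mem _ hx hy
  | smul r x _ hx => exact Subalgebra.smul_mem _ hx r

/-- the datum of a subalgebra `H` of `T → Ω` which is `R`-free on a basis that is
`Ω`-linearly independent, and closed under translation, evaluation at `0` and inversion. -/
def Datum.ofSubalgebra (H : Subalgebra R (T → Ω)) {κ : Type*} [Fintype κ]
    (b : Module.Basis κ R H) (hli : LinearIndependent Ω (fun i => ((b i : H) : T → Ω)))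
    (hR : Function.Injective (algebraMap R Ω))
    (hΔ : ∀ f ∈ H, (fun st : T × T => f (st.1 + st.2)) ∈ Submodule.span R
      {F : T × T → Ω | ∃ g ∈ H, ∃ h ∈ H, F = fun st => g st.1 * h st.2})
    (hε : ∀ f ∈ H, ∃ r : R, algebraMap R Ω r = f 0)
    (hS : ∀ f ∈ H, (fun t => f (-t)) ∈ H) : Datum H.val κ where
  IB := ⟨b, hli⟩
  hR := hR
  hΔ := fun a => by
    apply mem_range_extProd_of_mem_span
    refine Submodule.span_mono ?_ (hΔ a a.2)
    rintro F ⟨g, hg, h, hh, rfl⟩
    exact ⟨⟨g, hg⟩, ⟨h, hh⟩, rfl⟩
  hε := fun a => hε a a.2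
  hS := fun a => ⟨⟨_, hS a a.2⟩, rfl⟩

end Subalgebra

end Fermat.Agent.S19x.HopfOrder
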