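import Mathlib
import Fermat.Agent.S56x.Dict.FFPoints
import Fermat.Agent.S19x.FF.FunModel
import Fermat.Agent.S19x.FF.FunModelOfFF
import Fermat.Agent.S19x.FF.FunModelQuot
import Fermat.Agent.S19x.C.SubQuot

/-!
# P-S19, leaf C2 (helper64): `IsFFPoints` passes to quotients by Galois-stable subgroups

If `X` is the group of `ℚ̄`-points of a finite flat commutative group scheme over `ℤ_(p)` and
`Y ≤ X` is a `G_ℚ`-stable subgroup, then so is `X ⧸ Y`, for any action on the quotient compatible
with the projection.  Proof: pass to the function-level model (`exists_funModel`), take the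
`Y`-invariant functions (`FunModel.exists_quot`), and go back (`FunModel.isFFPoints`, helper57's
Hopf-order lemma).  No primality of `p` is needed.
-/

set_option autoImplicit false

namespace Fermat.Agent.S19x.FFQuot

open Fermat.Agent.S56x.Dict.FFPoints Fermat.Agent.S19x.FF

local notation "Γℚ" => (AlgebraicClosure ℚ ≃ₐ[ℚ] AlgebraicClosure ℚ)

/-- **C2**: `IsFFPoints` passes to quotients by `G_ℚ`-stable subgroups. -/
theorem isFFPoints_of_quotient {p : ℕ} {X : Type} [AddCommGroup X] {act : Γℚ → X → X}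
    (h : IsFFPoints p X act) (Y : AddSubgroup X) (hY : ∀ σ, ∀ y ∈ Y, act σ y ∈ Y)
    (actQ : Γℚ → X ⧸ Y → X ⧸ Y)
    (hQ : ∀ σ x, actQ σ (QuotientAddGroup.mk x) = QuotientAddGroup.mk (act σ x)) :
    IsFFPoints p (X ⧸ Y) actQ := by
  obtain ⟨M⟩ := exists_funModel h
  obtain ⟨MQ⟩ := M.exists_quot Y hY actQ hQ
  exact MQ.isFFPoints

/-- C2 in the `Prop` form of `S19x/C/SubQuot.lean`. -/
theorem ofQuotientStatement (p : ℕ) [Fact p.Prime] :
    Fermat.Agent.S19x.C.SubQuot.OfQuotientStatement p :=
  fun h Y hY actQ hQ => isFFPoints_of_quotient h Y hY actQ hQ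

end Fermat.Agent.S19x.FFQuot
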