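import Mathlib

/-!
# P-S19 (stage 2, block C): equal traces + Burnside ⇒ isomorphic

Mathlib only.  `E` a field, `G` a monoid, `r₁ : G →* End_E(V₁)`, `r₂ : G →* End_E(V₂)` two
finite-dimensional representations such that the `E`-span of `rᵢ(G)` is all of `End_E(Vᵢ)`
(the conclusion of Burnside's theorem for absolutely irreducible representations) and
`tr r₁(g) = tr r₂(g)` for all `g`.  Then `r₁ ≅ r₂`: there is a linear equivalence
`φ : V₁ ≃ₗ[E] V₂` with `φ (r₁ g v) = r₂ g (φ v)` (`exists_equiv_of_trace_eq`).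

No hypothesis on the characteristic, no finiteness of `G`, no semisimplicity: the kernels of the
two maps `E[G] → End(Vᵢ)` agree by the nondegeneracy of the trace form, which gives a trace
preserving ring isomorphism `End(V₁) → End(V₂)`, and such a map is induced by a linear isomorphism
(explicit Skolem–Noether for `End(V)`).

Matrix form: `exists_matrix_conj_of_trace_eq`.
-/

set_option autoImplicit false
set_option linter.unusedSectionVars false

open Module

namespace Fermat.Agent.S19x.TraceIso

variable {E : Type*} [Field E]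

section EndFacts

variable {V : Type*} [AddCommGroup V] [Module E V]

/-- For `v ≠ 0` there is a functional with `f v = 1`. -/
theorem exists_dual_eq_one {v : V} (hv : v ≠ 0) : ∃ f : Module.Dual E V, f v = 1 :=
  Module.Projective.exists_dual_eq_one E hv

/-- `End(V)` acts transitively on the nonzero vectors. -/
theorem exists_end_apply_eq {v : V} (hv : v ≠ 0) (w : V) : ∃ M : Module.End E V, M v = w := by
  obtain ⟨f, hf⟩ := exists_dual_eq_one (E := E) hv
  exact ⟨f.smulRight w, by rw [LinearMap.smulRight_apply, hf, one_smul]⟩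

variable [FiniteDimensional E V]

/-- Nondegeneracy of the trace form on `End(V)`. -/
theorem eq_zero_of_trace_comp_eq_zero (M : Module.End E V)
    (h : ∀ N : Module.End E V, LinearMap.trace E V (M * N) = 0) : M = 0 := by
  ext v
  rw [LinearMap.zero_apply, ← Module.forall_dual_apply_eq_zero_iff E]
  intro f
  have h1 := h (f.smulRight v)
  have h2 : M * f.smulRight v = f.smulRight (M v) := by
    ext u
    rw [Module.End.mul_apply, LinearMap.smulRight_apply, LinearMap.smulRight_apply, map_smul]
  rw [h2, LinearMap.trace_smulRight] at h1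
  exact h1

end EndFacts

section Main

variable {G : Type*} [Monoid G]
variable {V₁ V₂ : Type*} [AddCommGroup V₁] [Module E V₁] [FiniteDimensional E V₁]
  [AddCommGroup V₂] [Module E V₂] [FiniteDimensional E V₂]

/-- the linear extension of a representation to finitely supported functions -/
noncomputable def ext (r : G →* Module.End E V₁) : (G →₀ E) →ₗ[E] Module.End E V₁ :=
  Finsupp.linearCombination E (fun g => r g)

theorem ext_single (r : G →* Module.End E V₁) (g : G) (c : E) :
    ext r (Finsupp.single g c) = c • r g := by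
  rw [ext, Finsupp.linearCombination_single]

theorem range_ext (r : G →* Module.End E V₁) :
    LinearMap.range (ext r) = Submodule.span E (Set.range r) := by
  rw [ext, Finsupp.range_linearCombination]

theorem ext_surjective (r : G →* Module.End E V₁)
    (h : Submodule.span E (Set.range r) = ⊤) : Function.Surjective (ext r) := by
  rw [← LinearMap.range_eq_top, range_ext, h]

/-- `ext r x * r g` is the extension of the right translate -/
theorem ext_mul_apply (r : G →* Module.End E V₁) (x : G →₀ E) (g : G) :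
    ext r x * r g = x.sum fun a c => c • r (a * g) := by
  rw [ext, Finsupp.linearCombination_apply, Finsupp.sum, Finset.sum_mul, Finsupp.sum]
  refine Finset.sum_congr rfl fun a _ => ?_
  rw [smul_mul_assoc, map_mul]

theorem trace_ext_mul (r : G →* Module.End E V₁) (x : G →₀ E) (g : G) :
    LinearMap.trace E V₁ (ext r x * r g) =
      x.sum fun a c => c * LinearMap.trace E V₁ (r (a * g)) := by
  rw [ext_mul_apply, Finsupp.sum, map_sum, Finsupp.sum]
  refine Finset.sum_congr rfl fun a _ => ?_
  rw [map_smul, smul_eq_mul]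

/-- **Kernel comparison**: equal traces and `span r₂(G) = End(V₂)` give
`ker (E[G] → End V₁) ≤ ker (E[G] → End V₂)`. -/
theorem ker_ext_le (r₁ : G →* Module.End E V₁) (r₂ : G →* Module.End E V₂)
    (h₂ : Submodule.span E (Set.range r₂) = ⊤)
    (htr : ∀ g, LinearMap.trace E V₁ (r₁ g) = LinearMap.trace E V₂ (r₂ g)) :
    LinearMap.ker (ext r₁) ≤ LinearMap.ker (ext r₂) := by
  intro x hx
  rw [LinearMap.mem_ker] at hx ⊢
  apply eq_zero_of_trace_comp_eq_zero
  intro N
  have hN : N ∈ Submodule.span E (Set.range r₂) := by rw [h₂]; trivial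
  induction hN using Submodule.span_induction with
  | mem N hN =>
    obtain ⟨g, rfl⟩ := hN
    rw [trace_ext_mul]
    have h1 := trace_ext_mul r₁ x g
    rw [hx, zero_mul, map_zero] at h1
    rw [h1]
    refine Finsupp.sum_congr fun a _ => ?_
    rw [htr]
  | zero => rw [mul_zero, map_zero]
  | add N N' _ _ hN hN' => rw [mul_add, map_add, hN, hN', add_zero]
  | smul c N _ hN => rw [mul_smul_comm, map_smul, hN, smul_zero]

end Main

section SkolemNoether

variable {V₁ V₂ : Type*} [AddCommGroup V₁] [Module E V₁] [FiniteDimensional E V₁]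
  [AddCommGroup V₂] [Module E V₂] [FiniteDimensional E V₂]

/-- **Skolem–Noether for `End(V)`, explicit form**: a multiplicative, trace preserving, surjective
linear map `ψ : End(V₁) → End(V₂)` is induced by a linear equivalence `V₁ ≃ V₂`. -/
theorem exists_equiv_of_mul_trace [Nontrivial V₁]
    (ψ : Module.End E V₁ →ₗ[E] Module.End E V₂)
    (hmul : ∀ M N, ψ (M * N) = ψ M * ψ N)
    (htr : ∀ M, LinearMap.trace E V₂ (ψ M) = LinearMap.trace E V₁ M)
    (hsurj : Function.Surjective ψ) :
    ∃ φ : V₁ ≃ₗ[E] V₂, ∀ (M : Module.End E V₁) (v : V₁), φ (M v) = ψ M (φ v) := by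
  obtain ⟨v₁, hv₁⟩ := exists_ne (0 : V₁)
  obtain ⟨f, hf⟩ := exists_dual_eq_one (E := E) hv₁
  -- the rank one idempotent `e` and its image
  set e : Module.End E V₁ := f.smulRight v₁ with he
  have hee : e * e = e := by
    ext u
    rw [Module.End.mul_apply, he, LinearMap.smulRight_apply, LinearMap.smulRight_apply, map_smul,
      hf, smul_eq_mul, mul_one]
  have htre : LinearMap.trace E V₂ (ψ e) = 1 := by
    rw [htr, he, LinearMap.trace_smulRight, hf]
  have he2 : ψ e ≠ 0 := by
    intro h0
    rw [h0, map_zero] at htre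
    exact zero_ne_one htre
  obtain ⟨w, hw⟩ : ∃ w : V₂, ψ e w ≠ 0 := by
    by_contra h
    apply he2
    ext w
    by_contra hw
    exact h ⟨w, hw⟩
  set v₂ : V₂ := ψ e w with hv₂
  have hev₂ : ψ e v₂ = v₂ := by
    rw [hv₂, ← Module.End.mul_apply, ← hmul, hee]
  -- the map `φ v = ψ (f.smulRight v) v₂`
  let φ : V₁ →ₗ[E] V₂ :=
    (LinearMap.applyₗ v₂).comp (ψ.comp (LinearMap.smulRightₗ f))
  have hφ : ∀ v, φ v = ψ (f.smulRight v) v₂ := fun v => rfl
  have hint : ∀ (M : Module.End E V₁) (v : V₁), φ (M v) = ψ M (φ v) := by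
    intro M v
    have hT : f.smulRight (M v) = M * f.smulRight v := by
      ext u
      rw [Module.End.mul_apply, LinearMap.smulRight_apply, LinearMap.smulRight_apply, map_smul]
    rw [hφ, hφ, hT, hmul, Module.End.mul_apply]
  have hφv₁ : φ v₁ = v₂ := by rw [hφ, ← he, hev₂]
  have hinj : Function.Injective φ := by
    rw [← LinearMap.ker_eq_bot, LinearMap.ker_eq_bot']
    intro v hv
    by_contra hv0
    obtain ⟨M, hM⟩ := exists_end_apply_eq (E := E) hv0 v₁
    have h1 := hint M v
    rw [hM, hv, map_zero, hφv₁] at h1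
    exact hw h1
  have hsurjφ : Function.Surjective φ := by
    intro w'
    obtain ⟨N, hN⟩ := exists_end_apply_eq (E := E) hw w'
    obtain ⟨M, rfl⟩ := hsurj N
    exact ⟨M v₁, by rw [hint, hφv₁, hN]⟩
  exact ⟨LinearEquiv.ofBijective φ ⟨hinj, hsurjφ⟩, fun M v => hint M v⟩

end SkolemNoether

section Theorem

variable {G : Type*} [Monoid G]
variable {V₁ V₂ : Type*} [AddCommGroup V₁] [Module E V₁] [FiniteDimensional E V₁]
  [AddCommGroup V₂] [Module E V₂] [FiniteDimensional E V₂]

/-- The transfer map `ψ : End(V₁) → End(V₂)` with `ψ (r₁ g) = r₂ g`. -/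
theorem exists_transfer (r₁ : G →* Module.End E V₁) (r₂ : G →* Module.End E V₂)
    (h₁ : Submodule.span E (Set.range r₁) = ⊤) (h₂ : Submodule.span E (Set.range r₂) = ⊤)
    (htr : ∀ g, LinearMap.trace E V₁ (r₁ g) = LinearMap.trace E V₂ (r₂ g)) :
    ∃ ψ : Module.End E V₁ →ₗ[E] Module.End E V₂, (∀ g, ψ (r₁ g) = r₂ g) ∧
      (∀ M N, ψ (M * N) = ψ M * ψ N) ∧
      (∀ M, LinearMap.trace E V₂ (ψ M) = LinearMap.trace E V₁ M) ∧ Function.Surjective ψ := by
  have hs₁ := ext_surjective r₁ h₁
  have hs₂ := ext_surjective r₂ h₂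
  let ψ : Module.End E V₁ →ₗ[E] Module.End E V₂ :=
    ((LinearMap.ker (ext r₁)).liftQ (ext r₂) (ker_ext_le r₁ r₂ h₂ htr)).comp
      ((ext r₁).quotKerEquivOfSurjective hs₁).symm.toLinearMap
  have hψ : ∀ x, ψ (ext r₁ x) = ext r₂ x := by
    intro x
    have h1 : ((ext r₁).quotKerEquivOfSurjective hs₁).symm (ext r₁ x) =
        Submodule.Quotient.mk x := by
      rw [LinearEquiv.symm_apply_eq]
      rfl
    show (LinearMap.ker (ext r₁)).liftQ (ext r₂) (ker_ext_le r₁ r₂ h₂ htr)
      (((ext r₁).quotKerEquivOfSurjective hs₁).symm (ext r₁ x)) = _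
    rw [h1, Submodule.liftQ_apply]
  have hψr : ∀ g, ψ (r₁ g) = r₂ g := by
    intro g
    have h1 := hψ (Finsupp.single g 1)
    rwa [ext_single, ext_single, one_smul, one_smul] at h1
  have hall : ∀ (P : Module.End E V₁ → Prop), (∀ g, P (r₁ g)) → P 0 →
      (∀ M N, P M → P N → P (M + N)) → (∀ (c : E) M, P M → P (c • M)) → ∀ M, P M := by
    intro P hr h0 hadd hsmul M
    have hM : M ∈ Submodule.span E (Set.range r₁) := by rw [h₁]; trivial
    induction hM using Submodule.span_induction with
    | mem M hM => obtain ⟨g, rfl⟩ := hM; exact hr g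
    | zero => exact h0
    | add M N _ _ hM hN => exact hadd M N hM hN
    | smul c M _ hM => exact hsmul c M hM
  have hmul1 : ∀ (h : G) (M : Module.End E V₁), ψ (M * r₁ h) = ψ M * r₂ h := by
    intro h
    refine hall _ (fun g => ?_) ?_ (fun M N hM hN => ?_) (fun c M hM => ?_)
    · rw [← map_mul, hψr, hψr, map_mul]
    · rw [zero_mul, map_zero, zero_mul]
    · rw [add_mul, map_add, map_add, add_mul, hM, hN]
    · rw [smul_mul_assoc, map_smul, map_smul, smul_mul_assoc, hM]
  have hmul : ∀ M N, ψ (M * N) = ψ M * ψ N := by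
    intro M
    refine hall _ (fun h => ?_) ?_ (fun N N' hN hN' => ?_) (fun c N hN => ?_)
    · rw [hmul1, hψr]
    · rw [mul_zero, map_zero, mul_zero]
    · rw [mul_add, map_add, map_add, mul_add, hN, hN']
    · rw [mul_smul_comm, map_smul, map_smul, mul_smul_comm, hN]
  have htrψ : ∀ M, LinearMap.trace E V₂ (ψ M) = LinearMap.trace E V₁ M := by
    refine hall _ (fun g => ?_) ?_ (fun M N hM hN => ?_) (fun c M hM => ?_)
    · rw [hψr, htr]
    · rw [map_zero, map_zero, map_zero]
    · rw [map_add, map_add, map_add, hM, hN]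
    · rw [map_smul, map_smul, map_smul, hM]
  refine ⟨ψ, hψr, hmul, htrψ, fun N => ?_⟩
  obtain ⟨x, rfl⟩ := hs₂ N
  exact ⟨ext r₁ x, hψ x⟩

/-- **Equal traces + Burnside ⇒ isomorphic.**  Two finite-dimensional representations
`r₁, r₂` of a monoid `G` over a field `E` whose images span the full endomorphism algebras and
whose traces agree are isomorphic. -/
theorem exists_equiv_of_trace_eq (r₁ : G →* Module.End E V₁) (r₂ : G →* Module.End E V₂)
    (h₁ : Submodule.span E (Set.range r₁) = ⊤) (h₂ : Submodule.span E (Set.range r₂) = ⊤)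
    (htr : ∀ g, LinearMap.trace E V₁ (r₁ g) = LinearMap.trace E V₂ (r₂ g)) :
    ∃ φ : V₁ ≃ₗ[E] V₂, ∀ (g : G) (v : V₁), φ (r₁ g v) = r₂ g (φ v) := by
  obtain ⟨ψ, hψr, hmul, htrψ, hsurj⟩ := exists_transfer r₁ r₂ h₁ h₂ htr
  rcases subsingleton_or_nontrivial V₁ with hV₁ | hV₁
  · -- `V₁ = 0`: then `End V₂ = ψ (End V₁) = 0`, so `V₂ = 0`
    have hV₂ : Subsingleton V₂ := by
      refine ⟨fun a b => ?_⟩
      obtain ⟨M, hM⟩ := hsurj (1 : Module.End E V₂)
      have hM0 : M = 0 := Subsingleton.elim _ _
      rw [hM0, map_zero] at hM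
      have ha : a = (1 : Module.End E V₂) a := rfl
      have hb : b = (1 : Module.End E V₂) b := rfl
      rw [ha, hb, ← hM, LinearMap.zero_apply, LinearMap.zero_apply]
    exact ⟨LinearEquiv.ofSubsingleton V₁ V₂, fun g v => Subsingleton.elim _ _⟩
  · obtain ⟨φ, hφ⟩ := exists_equiv_of_mul_trace ψ hmul htrψ hsurj
    exact ⟨φ, fun g v => by rw [hφ, hψr]⟩

end Theorem

section MatrixForm

variable {G : Type*} [Monoid G] {n : Type*} [Fintype n] [DecidableEq n]

/-- **Matrix form**: two matrix representations whose images span the full matrix algebra and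
whose traces agree are conjugate. -/
theorem exists_matrix_conj_of_trace_eq (r₁ r₂ : G →* Matrix n n E)
    (h₁ : Submodule.span E (Set.range r₁) = ⊤) (h₂ : Submodule.span E (Set.range r₂) = ⊤)
    (htr : ∀ g, (r₁ g).trace = (r₂ g).trace) :
    ∃ P : Matrix n n E, IsUnit P.det ∧ ∀ g, P * r₁ g = r₂ g * P := by
  let T : Matrix n n E ≃ₐ[E] Module.End E (n → E) := Matrix.toLinAlgEquiv'
  let s : (G →* Matrix n n E) → (G →* Module.End E (n → E)) := fun r =>
    { toFun := fun g => T (r g)
      map_one' := by rw [map_one, map_one]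
      map_mul' := fun a b => by rw [map_mul, map_mul] }
  have hs : ∀ r : G →* Matrix n n E, Submodule.span E (Set.range r) = ⊤ →
      Submodule.span E (Set.range (s r)) = ⊤ := by
    intro r h
    have h1 : Set.range (s r) = T.toLinearMap '' Set.range r := by
      ext M
      constructor
      · rintro ⟨g, rfl⟩
        exact ⟨r g, ⟨g, rfl⟩, rfl⟩
      · rintro ⟨_, ⟨g, rfl⟩, rfl⟩
        exact ⟨g, rfl⟩
    rw [h1, Submodule.span_image, h, Submodule.map_top, LinearMap.range_eq_top]
    exact T.surjective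
  have hT : ∀ A : Matrix n n E, T A = Matrix.toLin' A := fun A => rfl
  have htr' : ∀ g, LinearMap.trace E (n → E) (s r₁ g) = LinearMap.trace E (n → E) (s r₂ g) := by
    intro g
    show LinearMap.trace E (n → E) (T (r₁ g)) = LinearMap.trace E (n → E) (T (r₂ g))
    rw [hT, hT, Matrix.trace_toLin'_eq, Matrix.trace_toLin'_eq, htr]
  obtain ⟨φ, hφ⟩ := exists_equiv_of_trace_eq (s r₁) (s r₂) (hs r₁ h₁) (hs r₂ h₂) htr'
  refine ⟨LinearMap.toMatrix' φ.toLinearMap, ?_, fun g => ?_⟩
  · have h1 : LinearMap.toMatrix' φ.toLinearMap * LinearMap.toMatrix' φ.symm.toLinearMap = 1 := by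
      rw [← LinearMap.toMatrix'_comp, LinearEquiv.comp_symm, LinearMap.toMatrix'_id]
    have h2 := congrArg Matrix.det h1
    rw [Matrix.det_mul, Matrix.det_one] at h2
    exact IsUnit.of_mul_eq_one _ h2
  · apply Matrix.toLin'.injective
    rw [Matrix.toLin'_mul, Matrix.toLin'_mul, Matrix.toLin'_toMatrix']
    refine LinearMap.ext fun v => ?_
    rw [LinearMap.comp_apply, LinearMap.comp_apply]
    exact hφ g v

end MatrixForm

end Fermat.Agent.S19x.TraceIso
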